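/-
S36lib / Mid / Degree  (helper8)

**Degrees of the degeneracy maps at level `M q²`** (over `Q̄`):

* `finrank_alpha₂`      : `[FBar (M q q) : α (FBar (M q))] = q`;
* `finrank_beta₂`       : `[FBar (M q q) : β (FBar (M q))] = q`   (`w_{q²} ∘ α = β ∘ w_q`);
* `finrank_inclL_sq`    : `[FBar (M q q) : FBar M] = q (q + 1)` (`q ∤ M`);
* `alpha_alpha_eq_inclL`, `beta_alpha_eq_alpha_beta` : `α ∘ α` is the inclusion, `β ∘ α = α ∘ β`;
* `finrank_eq_of_equiv_equiv'` : degrees along two ring homomorphisms intertwined by a pair of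
  ring automorphisms agree.
-/
import Mathlib
import Fermat.Agent.S36lib.AL.WQDeg
import Fermat.Agent.S18lib.V.GaussU.LevelFin
import Fermat.Agent.S28lib.PsiStep

set_option autoImplicit false
set_option linter.unusedSectionVars false
set_option linter.style.haveILetI false

noncomputable section

namespace Fermat.Agent.S36lib.Mid

open AlgebraicCurve ModularCurve Fermat.Agent.S18lib Fermat.Agent.S18lib.V
open Fermat.Agent.LSb.Val Fermat.Agent.S36lib.AL

local notation "Qb" => AlgebraicClosure ℚ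

/-- degrees along two ring homomorphisms intertwined by a pair of ring automorphisms agree -/
theorem finrank_eq_of_equiv_equiv' {K F : Type*} [Field K] [Field F] (a b : K →+* F)
    (w₀ : K ≃+* K) (w : F ≃+* F) (hab : ∀ c, w (a c) = b (w₀ c)) :
    @Module.finrank K F _ _ a.toAlgebra.toModule = @Module.finrank K F _ _ b.toAlgebra.toModule := by
  letI ia : Algebra K F := a.toAlgebra
  exact @Algebra.finrank_eq_of_equiv_equiv K F _ _ a.toAlgebra K F _ _ b.toAlgebra w₀ w
    (RingHom.ext fun c => (hab c).symm)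

variable (M q : ℕ) [NeZero M] [NeZero q]

/-- `[FBar (M q q) : α (FBar (M q))] = q` -/
theorem finrank_alpha₂ (hq : q.Prime) :
    finrankAlong Qb (heckeAlphaBar Qb (M * q) q) = q := by
  have h1 := V.dedekindPsi_mul_finrank_inclL (N := M * q) (N' := M * q * q) (Dvd.intro _ rfl)
  rw [S28lib.Chain.dedekindPsi_mul_prime_of_dvd (NeZero.ne (M * q)) hq (Dvd.intro_left M rfl)] at h1
  have hpos : 0 < dedekindPsi (M * q) := Fermat.Agent.ProgramR.BarField.dedekindPsi_pos (M * q)
  exact Nat.eq_of_mul_eq_mul_left hpos h1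

/-- `[FBar (M q q) : β (FBar (M q))] = q` -/
theorem finrank_beta₂ (hq : q.Prime) (hqM : ¬ q ∣ M) :
    finrankAlong Qb (heckeBetaBar Qb (M * q) q) = q := by
  have h := finrank_eq_of_equiv_equiv' (heckeAlphaBar Qb (M * q) q).toRingHom
    (heckeBetaBar Qb (M * q) q).toRingHom
    (wq M q hq hqM : FBar (M * q) ≃ₐ[Qb] FBar (M * q)).toRingEquiv
    (wqq M q hq hqM : FBar (M * q * q) ≃ₐ[Qb] FBar (M * q * q)).toRingEquiv
    (fun c => wqq_alpha M q hq hqM c)
  exact h.symm.trans (finrank_alpha₂ M q hq)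

/-- `[FBar (M q q) : FBar M] = q (q + 1)` for `q ∤ M` -/
theorem finrank_inclL_sq (hq : q.Prime) (hqM : ¬ q ∣ M) :
    @Module.finrank (FBar M) (FBar (M * q * q)) _ _
      (inclL (N := M) (N' := M * q * q)
        ((Dvd.intro q rfl).trans (Dvd.intro q rfl))).toRingHom.toAlgebra.toModule = q * (q + 1) := by
  have h1 := V.dedekindPsi_mul_finrank_inclL (N := M) (N' := M * q * q)
    ((Dvd.intro q rfl).trans (Dvd.intro q rfl))
  have hψ : dedekindPsi (M * q * q) = dedekindPsi M * (q * (q + 1)) := by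
    rw [S28lib.Chain.dedekindPsi_mul_prime_of_dvd (NeZero.ne (M * q)) hq (Dvd.intro_left M rfl),
      S28lib.Chain.dedekindPsi_mul_prime_of_not_dvd (NeZero.ne M) hq hqM, mul_assoc,
      mul_comm (q + 1) q]
  rw [hψ] at h1
  have hpos : 0 < dedekindPsi M := Fermat.Agent.ProgramR.BarField.dedekindPsi_pos M
  exact Nat.eq_of_mul_eq_mul_left hpos h1

/-- `α ∘ α` is the inclusion `FBar M ⊆ FBar (M q q)` -/
theorem alpha_alpha_eq_inclL (f : FBar M) :
    heckeAlphaBar Qb (M * q) q (heckeAlphaBar Qb M q f) =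
      inclL (N := M) (N' := M * q * q) ((Dvd.intro q rfl).trans (Dvd.intro q rfl)) f := by
  apply Subtype.ext
  rw [coe_heckeAlphaBar, coe_heckeAlphaBar, coe_inclL]

/-- `β ∘ α = α ∘ β` on `FBar M` -/
theorem beta_alpha_eq_alpha_beta (f : FBar M) :
    heckeBetaBar Qb (M * q) q (heckeAlphaBar Qb M q f) =
      heckeAlphaBar Qb (M * q) q (heckeBetaBar Qb M q f) := by
  apply Subtype.ext
  rw [coe_heckeBetaBar, coe_heckeAlphaBar, coe_heckeAlphaBar, coe_heckeBetaBar]

/-- `[FBar (M q q) : α α (FBar M)] = q (q + 1)` -/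
theorem finrank_alpha_alpha (hq : q.Prime) (hqM : ¬ q ∣ M) :
    finrankAlong Qb ((heckeAlphaBar Qb (M * q) q).comp (heckeAlphaBar Qb M q)) = q * (q + 1) := by
  have h : ((heckeAlphaBar Qb (M * q) q).comp (heckeAlphaBar Qb M q)) =
      inclL (N := M) (N' := M * q * q) ((Dvd.intro q rfl).trans (Dvd.intro q rfl)) :=
    AlgHom.ext fun f => alpha_alpha_eq_inclL M q f
  rw [h]
  exact finrank_inclL_sq M q hq hqM

/-- `w_{q²} ∘ α ∘ α = β ∘ β` on `FBar M` -/
theorem wqq_alpha_alpha (hq : q.Prime) (hqM : ¬ q ∣ M) (f : FBar M) :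
    wqq M q hq hqM (heckeAlphaBar Qb (M * q) q (heckeAlphaBar Qb M q f)) =
      heckeBetaBar Qb (M * q) q (heckeBetaBar Qb M q f) := by
  rw [wqq_alpha, wq_alpha]

/-- `[FBar (M q q) : β β (FBar M)] = q (q + 1)` -/
theorem finrank_beta_beta (hq : q.Prime) (hqM : ¬ q ∣ M) :
    finrankAlong Qb ((heckeBetaBar Qb (M * q) q).comp (heckeBetaBar Qb M q)) = q * (q + 1) := by
  have h := finrank_eq_of_equiv_equiv'
    ((heckeAlphaBar Qb (M * q) q).comp (heckeAlphaBar Qb M q)).toRingHom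
    ((heckeBetaBar Qb (M * q) q).comp (heckeBetaBar Qb M q)).toRingHom
    (RingEquiv.refl (FBar M))
    (wqq M q hq hqM : FBar (M * q * q) ≃ₐ[Qb] FBar (M * q * q)).toRingEquiv
    (fun c => wqq_alpha_alpha M q hq hqM c)
  exact h.symm.trans (finrank_alpha_alpha M q hq hqM)

end Fermat.Agent.S36lib.Mid
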