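/-
S36lib / Mid / FixDegree  (helper8)

**The degree of a Galois-equivariant homomorphism does not change on the fixed fields.**

For any subgroup `H ≤ G_ℚ` and any ring homomorphism `ψ : FBar N → FBar N'` which is `ℚ̄`-linear and
commutes with the coefficientwise Galois action of `H`, the restriction
`fixMap H ψ hψ : fixF N H → fixF N' H` (helper7) has the same degree as `ψ` (Speiser / Artin:
helper1's `Desc2.finrank_comap_eq` with `L = FBar N`, `F = FBar N'` as an `FBar N`-vector space
along `ψ`, `K = fixF N H`):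

* `finrankHom_eq_of_fixed` : the abstract statement (fields `K → L`, `K' → F`, families of
  endomorphisms with fixed fields `K`, `K'`);
* `finrankHom_fixMap`  : `finrankHom (fixMap H ψ hψ) = finrankHom ψ`;
* `finiteHom_fixMap`   : `FiniteHom ψ → FiniteHom (fixMap H ψ hψ)`;
* `alphaFixM`, `betaFixM : fixF M H →+* fixF (M q) H` (level `M → M q`);
* `alphaAlphaFix : fixF M H →+* fixF (M q q) H` (`= alphaFix ∘ alphaFixM`), of degree `q (q + 1)`.
-/
import Mathlib
import Fermat.Agent.S36lib.Norm.DescendInst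
import Fermat.Agent.S36lib.Mid.Degree

set_option autoImplicit false
set_option linter.unusedSectionVars false
set_option linter.style.haveILetI false

noncomputable section

namespace Fermat.Agent.S36lib.Mid

open AlgebraicCurve ModularCurve Module Fermat.Agent.S18lib Fermat.Agent.S29lib.GH
open Fermat.Agent.S37lib.HeckeInst (FB)
open Fermat.Agent.S36lib.Desc2 Fermat.Agent.S36lib.Norm Fermat.Agent.LSb.Val

local notation "Qb" => AlgebraicClosure ℚ
local notation "GQ" => (AlgebraicClosure ℚ ≃ₐ[ℚ] AlgebraicClosure ℚ)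

/-! ### the abstract statement -/

section Abstract

variable {L F K K' : Type*} [Field L] [Field F] [Field K] [Field K']
variable {Γ : Type*}

/-- **Abstract form**: `ψ : L → F` equivariant for families `φ σ`, `ψ' σ` of endomorphisms with
fixed fields `K ⊆ L`, `K' ⊆ F`; if `F` is additively generated by the products `ψ a * g` with `g`
fixed, then `[K' : K] = [F : L]`. -/
theorem finrankHom_eq_of_fixed (ψ : L →+* F) (iK : K →+* L) (iK' : K' →+* F) (ψ₀ : K →+* K')
    (hcomm : ∀ a, iK' (ψ₀ a) = ψ (iK a))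
    (φ : Γ → L →+* L) (ψ' : Γ → F →+* F) (hequi : ∀ σ a, ψ' σ (ψ a) = ψ (φ σ a))
    (hK : ∀ a : L, (∀ σ, φ σ a = a) ↔ a ∈ Set.range iK)
    (hK' : ∀ f : F, (∀ σ, ψ' σ f = f) ↔ f ∈ Set.range iK')
    (hF : ∀ f : F, f ∈ AddSubmonoid.closure
      {x : F | ∃ (a : L) (g : F), (∀ σ, ψ' σ g = g) ∧ x = ψ a * g}) :
    finrankHom ψ₀ = finrankHom ψ ∧ (FiniteHom ψ → FiniteHom ψ₀) := by
  letI algL : Algebra L F := ψ.toAlgebra
  letI algKL : Algebra K L := iK.toAlgebra
  letI algK : Algebra K F := (ψ.comp iK).toAlgebra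
  letI algF : Algebra K K' := ψ₀.toAlgebra
  haveI tower : IsScalarTower K L F := IsScalarTower.of_algebraMap_eq fun _ => rfl
  set ψa : Γ → F →+ F := fun σ => (ψ' σ).toAddMonoidHom with hψa
  have hsemi : IsSemilinear φ ψa := by
    intro σ a f
    show ψ' σ (ψ a * f) = ψ (φ σ a) * ψ' σ f
    rw [map_mul, hequi]
  have hK1 : ∀ (σ : Γ) (c : K), φ σ (algebraMap K L c) = algebraMap K L c :=
    fun σ c => (hK (iK c)).2 ⟨c, rfl⟩ σ
  have hK2 : ∀ a : L, (∀ σ, φ σ a = a) → a ∈ Set.range (algebraMap K L) :=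
    fun a ha => (hK a).1 ha
  have hspan : Submodule.span L {f : F | IsFixed ψa f} = ⊤ := by
    rw [eq_top_iff]
    intro f _
    refine AddSubmonoid.closure_induction (motive := fun f _ =>
      f ∈ Submodule.span L {f : F | IsFixed ψa f}) ?_ ?_ ?_ (hF f)
    · rintro x ⟨a, g, hg, rfl⟩
      exact Submodule.smul_mem _ a (Submodule.subset_span hg)
    · exact Submodule.zero_mem _
    · intro g g' _ _ hg hg'
      exact Submodule.add_mem _ hg hg'
  let i' : K' →ₗ[K] F :=
    { toFun := fun x => iK' x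
      map_add' := fun x y => map_add iK' x y
      map_smul' := fun c x => by
        show iK' (ψ₀ c * x) = ψ (iK c) * iK' x
        rw [map_mul, hcomm] }
  have hinj : Function.Injective i' := iK'.injective
  have hrange : ∀ f : F, IsFixed ψa f ↔ f ∈ Set.range i' := fun f => hK' f
  have hV : ∀ σ, ∀ f ∈ (⊤ : Submodule L F), ψa σ f ∈ (⊤ : Submodule L F) :=
    fun _ _ _ => Submodule.mem_top
  have htop : ((⊤ : Submodule L F).restrictScalars K).comap i' = ⊤ := by
    rw [eq_top_iff]
    intro x _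
    exact Submodule.mem_top
  refine ⟨?_, ?_⟩
  · have h := finrank_comap_eq hsemi hK1 hK2 hspan i' hinj hrange ⊤ hV
    rw [htop, finrank_top, finrank_top] at h
    exact h
  · intro hfin
    haveI : FiniteDimensional L F := hfin
    haveI : FiniteDimensional L (⊤ : Submodule L F) := inferInstance
    have h := finiteDimensional_comap hsemi hK1 hK2 hspan i' hinj hrange ⊤ hV
    rw [htop] at h
    exact (LinearEquiv.finiteDimensional
      (Submodule.topEquiv : (⊤ : Submodule K K') ≃ₗ[K] K'))

end Abstract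

/-! ### the modular function fields -/

section General

variable {N N' : ℕ} (H : Subgroup GQ) (ψ : FB N →+* FB N')
  (hψ : ∀ σ ∈ H, ∀ x : FB N, galAutBar N' σ • ψ x = ψ (galAutBar N σ • x))
  (hψQ : ∀ c : Qb, ψ (algebraMap Qb (FB N) c) = algebraMap Qb (FB N') c)

include hψQ in
theorem fixMap_speiser :
    finrankHom (fixMap H ψ hψ) = finrankHom ψ ∧ (FiniteHom ψ → FiniteHom (fixMap H ψ hψ)) := by
  refine finrankHom_eq_of_fixed ψ (fixF N H).subtype (fixF N' H).subtype (fixMap H ψ hψ)
    (fun _ => rfl) (fun σ : H => galRing N (σ : GQ)) (fun σ : H => galRing N' (σ : GQ))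
    (fun σ a => hψ σ σ.2 a) ?_ ?_ ?_
  · intro a
    constructor
    · intro ha
      exact ⟨⟨a, mem_fixF.2 fun σ hσ => ha ⟨σ, hσ⟩⟩, rfl⟩
    · rintro ⟨c, rfl⟩ σ
      exact mem_fixF.1 c.2 σ σ.2
  · intro f
    constructor
    · intro hf
      exact ⟨⟨f, mem_fixF.2 fun σ hσ => hf ⟨σ, hσ⟩⟩, rfl⟩
    · rintro ⟨c, rfl⟩ σ
      exact mem_fixF.1 c.2 σ σ.2
  · intro f
    have hf : f ∈ Submodule.span Qb {f : FB N' | IsFixed (galPsi N' H) f} := by
      rw [span_isFixed_eq_top N' H]
      exact Submodule.mem_top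
    refine Submodule.span_induction (p := fun f _ => f ∈ AddSubmonoid.closure
      {x : FB N' | ∃ (a : FB N) (g : FB N'), (∀ σ : H, galRing N' (σ : GQ) g = g) ∧
        x = ψ a * g}) ?_ ?_ ?_ ?_ hf
    · intro g hg
      exact AddSubmonoid.subset_closure ⟨1, g, fun σ => hg σ, by rw [map_one, one_mul]⟩
    · exact AddSubmonoid.zero_mem _
    · intro g g' _ _ hg hg'
      exact AddSubmonoid.add_mem _ hg hg'
    · intro c g _ hg
      refine AddSubmonoid.closure_induction (motive := fun g _ => c • g ∈ AddSubmonoid.closure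
        {x : FB N' | ∃ (a : FB N) (g : FB N'), (∀ σ : H, galRing N' (σ : GQ) g = g) ∧
          x = ψ a * g}) ?_ ?_ ?_ hg
      · rintro x ⟨a, g₀, hg₀, rfl⟩
        refine AddSubmonoid.subset_closure ⟨algebraMap Qb (FB N) c * a, g₀, hg₀, ?_⟩
        rw [map_mul, hψQ, Algebra.smul_def, mul_assoc]
      · rw [smul_zero]
        exact AddSubmonoid.zero_mem _
      · intro x y _ _ hx hy
        rw [smul_add]
        exact AddSubmonoid.add_mem _ hx hy

include hψQ in
/-- **the degree on the fixed fields is the geometric degree** -/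
theorem finrankHom_fixMap : finrankHom (fixMap H ψ hψ) = finrankHom ψ :=
  (fixMap_speiser H ψ hψ hψQ).1

include hψQ in
/-- finiteness on the fixed fields -/
theorem finiteHom_fixMap (hfin : FiniteHom ψ) : FiniteHom (fixMap H ψ hψ) :=
  (fixMap_speiser H ψ hψ hψQ).2 hfin

end General

/-! ### the degeneracy maps of level `M → M q → M q q` on the fixed fields -/

section Concrete

variable (M q : ℕ) [NeZero M] [NeZero q] (H : Subgroup GQ)

/-- `α : fixF M H → fixF (M q) H` -/
def alphaFixM : fixF M H →+* fixF (M * q) H :=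
  fixMap H (heckeAlphaBar Qb M q).toRingHom (fun σ _ x => intertwines_alpha M q σ x)

/-- `β : fixF M H → fixF (M q) H` -/
def betaFixM : fixF M H →+* fixF (M * q) H :=
  fixMap H (heckeBetaBar Qb M q).toRingHom (fun σ _ x => intertwines_beta M q σ x)

theorem coe_alphaFixM (x : fixF M H) :
    ((alphaFixM M q H x : fixF (M * q) H) : FB (M * q)) = heckeAlphaBar Qb M q (x : FB M) := rfl

theorem coe_betaFixM (x : fixF M H) :
    ((betaFixM M q H x : fixF (M * q) H) : FB (M * q)) = heckeBetaBar Qb M q (x : FB M) := rfl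

theorem alphaFixM_algebraMap (c : fixK H) :
    alphaFixM M q H (algebraMap (fixK H) (fixF M H) c) =
      algebraMap (fixK H) (fixF (M * q) H) c := by
  apply Subtype.ext
  rw [coe_alphaFixM, coe_algebraMap_fixF, coe_algebraMap_fixF, AlgHom.commutes]

theorem betaFixM_algebraMap (c : fixK H) :
    betaFixM M q H (algebraMap (fixK H) (fixF M H) c) =
      algebraMap (fixK H) (fixF (M * q) H) c := by
  apply Subtype.ext
  rw [coe_betaFixM, coe_algebraMap_fixF, coe_algebraMap_fixF, AlgHom.commutes]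

/-- `β ∘ α = α ∘ β` on the fixed fields -/
theorem betaFix_alphaFixM (y : fixF M H) :
    betaFix M q H (alphaFixM M q H y) = alphaFix M q H (betaFixM M q H y) :=
  Subtype.ext (beta_alpha_eq_alpha_beta M q (y : FB M))

/-! #### degrees over `ℚ̄` at level `M → M q` -/

/-- `[FBar (M q) : α (FBar M)] = q + 1` -/
theorem finrank_alpha₁ (hq : q.Prime) (hqM : ¬ q ∣ M) :
    finrankAlong Qb (heckeAlphaBar Qb M q) = q + 1 := by
  have h1 := V.dedekindPsi_mul_finrank_inclL (N := M) (N' := M * q) (Dvd.intro _ rfl)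
  rw [S28lib.Chain.dedekindPsi_mul_prime_of_not_dvd (NeZero.ne M) hq hqM] at h1
  have hpos : 0 < dedekindPsi M := Fermat.Agent.ProgramR.BarField.dedekindPsi_pos M
  exact Nat.eq_of_mul_eq_mul_left hpos h1

/-- `[FBar (M q) : β (FBar M)] = q + 1` -/
theorem finrank_beta₁ (hq : q.Prime) (hqM : ¬ q ∣ M) :
    finrankAlong Qb (heckeBetaBar Qb M q) = q + 1 := by
  have h := finrank_eq_of_equiv_equiv' (heckeAlphaBar Qb M q).toRingHom
    (heckeBetaBar Qb M q).toRingHom (RingEquiv.refl (FBar M))
    (wq M q hq hqM : FBar (M * q) ≃ₐ[Qb] FBar (M * q)).toRingEquiv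
    (fun c => wq_alpha M q hq hqM c)
  exact h.symm.trans (finrank_alpha₁ M q hq hqM)

/-! #### degrees on the fixed fields -/

theorem finrankHom_alphaFixM (hq : q.Prime) (hqM : ¬ q ∣ M) :
    finrankHom (alphaFixM M q H) = q + 1 :=
  (finrankHom_fixMap H _ _ (fun c => (heckeAlphaBar Qb M q).commutes c)).trans
    (finrank_alpha₁ M q hq hqM)

theorem finrankHom_betaFixM (hq : q.Prime) (hqM : ¬ q ∣ M) :
    finrankHom (betaFixM M q H) = q + 1 :=
  (finrankHom_fixMap H _ _ (fun c => (heckeBetaBar Qb M q).commutes c)).trans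
    (finrank_beta₁ M q hq hqM)

theorem finiteHom_alphaFixM : FiniteHom (alphaFixM M q H) :=
  finiteHom_fixMap H _ _ (fun c => (heckeAlphaBar Qb M q).commutes c)
    (Fermat.Agent.S37lib.HeckeInst.finite_alpha M q)

theorem finiteHom_betaFixM : FiniteHom (betaFixM M q H) :=
  finiteHom_fixMap H _ _ (fun c => (heckeBetaBar Qb M q).commutes c)
    (Fermat.Agent.S37lib.HeckeInst.finite_beta M q)

/-- `α ∘ α : fixF M H → fixF (M q q) H` -/
def alphaAlphaFix : fixF M H →+* fixF (M * q * q) H :=
  (alphaFix M q H).comp (alphaFixM M q H)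

theorem alphaAlphaFix_apply (x : fixF M H) :
    alphaAlphaFix M q H x = alphaFix M q H (alphaFixM M q H x) := rfl

theorem alphaAlphaFix_eq_fixMap :
    alphaAlphaFix M q H = fixMap H
      ((heckeAlphaBar Qb (M * q) q).comp (heckeAlphaBar Qb M q)).toRingHom
      (fun σ _ x => by
        show galAutBar (M * q * q) σ • heckeAlphaBar Qb (M * q) q (heckeAlphaBar Qb M q x) =
          heckeAlphaBar Qb (M * q) q (heckeAlphaBar Qb M q (galAutBar M σ • x))
        exact (intertwines_alpha (M * q) q σ _).trans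
          (congrArg (heckeAlphaBar Qb (M * q) q) (intertwines_alpha M q σ x))) :=
  RingHom.ext fun _ => rfl

/-- **`[fixF (M q q) : α α (fixF M)] = q (q + 1)`** -/
theorem finrankHom_alphaAlphaFix (hq : q.Prime) (hqM : ¬ q ∣ M) :
    finrankHom (alphaAlphaFix M q H) = q * (q + 1) := by
  rw [alphaAlphaFix_eq_fixMap]
  exact (finrankHom_fixMap H _ _ (fun c =>
    ((heckeAlphaBar Qb (M * q) q).comp (heckeAlphaBar Qb M q)).commutes c)).trans
    (finrank_alpha_alpha M q hq hqM)

theorem finiteHom_alphaAlphaFix : FiniteHom (alphaAlphaFix M q H) := by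
  rw [alphaAlphaFix_eq_fixMap]
  refine finiteHom_fixMap H _ _ (fun c =>
    ((heckeAlphaBar Qb (M * q) q).comp (heckeAlphaBar Qb M q)).commutes c) ?_
  haveI : FiniteDimensional (IntermediateField.adjoin Qb
      {Fermat.Agent.S37lib.HeckeInst.jB (M * q * q)}) (FB (M * q * q)) :=
    Fermat.Agent.S37lib.HeckeInst.finiteDimensional_adjoin (M * q * q)
      (Fermat.Agent.S37lib.HeckeInst.transcendental_jB (M * q * q))
  exact Fermat.Agent.S37lib.HeckeInst.finite_along
    ((heckeAlphaBar Qb (M * q) q).comp (heckeAlphaBar Qb M q))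
    (Fermat.Agent.S37lib.HeckeInst.jB M) (Fermat.Agent.S37lib.HeckeInst.jB (M * q * q))
    (by
      show heckeAlphaBar Qb (M * q) q (heckeAlphaBar Qb M q _) = _
      rw [Fermat.Agent.S37lib.HeckeInst.heckeAlphaBar_jB,
        Fermat.Agent.S37lib.HeckeInst.heckeAlphaBar_jB])

end Concrete

end Fermat.Agent.S36lib.Mid
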