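/-
S36lib / Mid / Swap  (helper8)

**The middle valuation `v_b = v₁₁` along the second degeneracy map `β`.**

Setting (abstract): `F' → F₁ ⇉ F` (levels `M`, `M q`, `M q²`; `α₁ β₁ : F' → F₁`,
`α₂ β₂ : F₁ → F`), involutions `w₁` of `F₁` and `w` of `F` with `β₂ = w ∘ α₂ ∘ w₁`, a COMPLETE
`RamDatum` (`Σ e_i f_i = [F : F']`) of places `P i` of `F` above the place `P'` of `F'`
(`algebraMap F' F = α₂ ∘ α₁`), and a distinguished index `b` whose place `P b` is known ALONG
`α₂` only (`P b ∘ α₂ = P1`, the Eisenstein construction).  Then `P b ∘ β₂ = P2 := P1 ∘ w₁`: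

* `map_mem_of_isIntegralElem` : `β₂ (β₁ y) ∈ (P b).O` for `y ∈ P'.O` by integrality;
* `comap_eq_of_perm` (`Mid/Unique`) : hence `w` fixes `(P b).O` (it permutes the other places);
* `redF_equiv_eq` : `red_b ∘ w = red_b` (the induced automorphism of the residue field fixes the
  `w`-fixed elements, whose residues contain all `q`-th powers);
* `along_swap`, `mid_along_beta` : `β₂ g ∈ (P b).O ↔ g ∈ P2.O` and `red_b (β₂ g) = red_{P2} g`.
-/
import Mathlib
import Fermat.Agent.S36lib.Mid.Unique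

set_option autoImplicit false
set_option linter.unusedSectionVars false

noncomputable section

namespace Fermat.Agent.S36lib.Mid

open Fermat.Agent.S36lib.Norm Polynomial

section Integral

variable {F : Type*} [Field F]

/-- valuation rings are integrally closed, ring homomorphism form -/
theorem mem_of_isIntegralElem (O'' : ValuationSubring F) {R : Type*} [CommRing R]
    (φ : R →+* F) (h : ∀ r : R, φ r ∈ O'') {f : F} (hf : φ.IsIntegralElem f) : f ∈ O'' := by
  let _ : Algebra R F := φ.toAlgebra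
  exact mem_of_isIntegral O'' h hf

/-- integral equations are transported by ring homomorphisms -/
theorem isIntegralElem_map {R F₁ : Type*} [CommRing R] [Field F₁] (φ : R →+* F₁) (β : F₁ →+* F)
    {g : F₁} (hg : φ.IsIntegralElem g) : (β.comp φ).IsIntegralElem (β g) := by
  obtain ⟨p, hp, h0⟩ := hg
  refine ⟨p, hp, ?_⟩
  rw [← Polynomial.hom_eval₂, h0, map_zero]

/-- if `g` is integral over `φ R` and `β` maps `φ R` into the valuation ring `O''`, then
`β g ∈ O''` -/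
theorem map_mem_of_isIntegralElem (O'' : ValuationSubring F) {R F₁ : Type*} [CommRing R]
    [Field F₁] (φ : R →+* F₁) (β : F₁ →+* F) (h : ∀ r : R, β (φ r) ∈ O'') {g : F₁}
    (hg : φ.IsIntegralElem g) : β g ∈ O'' :=
  mem_of_isIntegralElem O'' (β.comp φ) h (isIntegralElem_map φ β hg)

end Integral

section Fix

variable {F : Type*} [Field F] {κ : Type*} [Field κ] (P : Place F κ) (w : F ≃+* F)

theorem mem_iff_of_comap_eq (hcomap : P.O.comap (w : F →+* F) = P.O) (x : F) :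
    w x ∈ P.O ↔ x ∈ P.O := by
  conv_rhs => rw [← hcomap]
  rw [ValuationSubring.mem_comap]
  rfl

theorem valuation_lt_one_iff_inv_not_mem (O : ValuationSubring F) {x : F} (hx : x ≠ 0) :
    O.valuation x < 1 ↔ x⁻¹ ∉ O := by
  have hpos : 0 < O.valuation x := zero_lt_iff.2 ((Valuation.ne_zero_iff _).2 hx)
  rw [← O.valuation_le_one_iff, map_inv₀, inv_le_one₀ hpos, not_le]

theorem valuation_lt_one_iff_of_comap_eq (hcomap : P.O.comap (w : F →+* F) = P.O) (x : F) :
    P.O.valuation (w x) < 1 ↔ P.O.valuation x < 1 := by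
  rcases eq_or_ne x 0 with rfl | hx
  · rw [map_zero]
  have hwx : w x ≠ 0 := (map_ne_zero w).2 hx
  rw [valuation_lt_one_iff_inv_not_mem P.O hwx, valuation_lt_one_iff_inv_not_mem P.O hx,
    ← map_inv₀, mem_iff_of_comap_eq P w hcomap]

/-- **the automorphism induced on the residue field is trivial** as soon as the residues of the
`w`-fixed integral elements contain all `q`-th powers (`q` the residue characteristic). -/
theorem redF_equiv_eq (hcomap : P.O.comap (w : F →+* F) = P.O) (q : ℕ) [hq : Fact q.Prime]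
    [CharP κ q] (hfix : ∀ z : κ, ∃ y : F, y ∈ P.O ∧ w y = y ∧ P.redF y = z ^ q) (x : F) :
    P.redF (w x) = P.redF x := by
  by_cases hx : x ∈ P.O
  · have hwx : w x ∈ P.O := (mem_iff_of_comap_eq P w hcomap x).2 hx
    obtain ⟨y, hy, hwy, hred⟩ := hfix (P.redF x)
    have hxq : x ^ q ∈ P.O := P.O.pow_mem hx q
    have h1 : P.O.valuation (x ^ q - y) < 1 := by
      rw [← P.redF_eq_zero_iff (P.O.sub_mem hxq hy), P.redF_sub hxq hy, P.redF_pow hx, hred,
        sub_self]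
    have h2 := (valuation_lt_one_iff_of_comap_eq P w hcomap (x ^ q - y)).2 h1
    rw [map_sub, map_pow, hwy] at h2
    have h3 := P.redF_eq_zero_of_lt h2
    rw [P.redF_sub (P.O.pow_mem hwx q) hy, P.redF_pow hwx, hred, sub_eq_zero] at h3
    exact frobenius_inj κ q h3
  · have hwx : w x ∉ P.O := fun h => hx ((mem_iff_of_comap_eq P w hcomap x).1 h)
    rw [P.redF_of_not_mem hx, P.redF_of_not_mem hwx]

end Fix

section Along

variable {F F₁ : Type*} [Field F] [Field F₁] {κ : Type*} [Field κ]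

/-- transfer of the description of `P_b` along `α` to the description along `β = w ∘ α ∘ w₁` -/
theorem along_swap (Pb : Place F κ) (P1 P2 : Place F₁ κ) (α β : F₁ →+* F) (w : F ≃+* F)
    (w₁ : F₁ →+* F₁) (hβ : ∀ g, β g = w (α (w₁ g)))
    (h12 : ∀ g, g ∈ P2.O ↔ w₁ g ∈ P1.O) (h12r : ∀ g, P2.redF g = P1.redF (w₁ g))
    (hα : ∀ g, α g ∈ Pb.O ↔ g ∈ P1.O) (hαr : ∀ g, Pb.redF (α g) = P1.redF g)
    (hcomap : Pb.O.comap (w : F →+* F) = Pb.O) (hred : ∀ x, Pb.redF (w x) = Pb.redF x) :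
    (∀ g, β g ∈ Pb.O ↔ g ∈ P2.O) ∧ ∀ g, Pb.redF (β g) = P2.redF g := by
  refine ⟨fun g => ?_, fun g => ?_⟩
  · rw [hβ, mem_iff_of_comap_eq Pb w hcomap, hα, h12]
  · rw [hβ, hred, hαr, h12r]

end Along

section Main

variable {F' F₁ F : Type*} [Field F'] [Field F₁] [Field F] [Algebra F' F]
variable {κ' : Type*} [Field κ']
variable {ι : Type*} [Fintype ι] [DecidableEq ι]
variable {κ : ι → Type*} [∀ i, Field (κ i)] [∀ i, Algebra κ' (κ i)]
variable {P' : Place F' κ'} {π : F'} {P : ∀ i, Place F (κ i)} {ϖ : ι → F} {e : ι → ℕ}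

/-- **`v_b` along `β`.**  See the header for the setting. -/
theorem mid_along_beta [FiniteDimensional F' F] [∀ i, Module.Finite κ' (κ i)]
    (D : RamDatum P' π P ϖ e)
    (hdeg : ∑ i, e i * Module.finrank κ' (κ i) = Module.finrank F' F)
    (w : F ≃+* F) (b : ι)
    (hperm : ∀ i, i ≠ b → ∃ j, j ≠ b ∧ (P j).O.comap (w : F →+* F) = (P i).O)
    (α₁ β₁ : F' →+* F₁) (α₂ β₂ : F₁ →+* F) (w₁ : F₁ →+* F₁)
    (hβ : ∀ g, β₂ g = w (α₂ (w₁ g)))
    (hwδ : ∀ y, w (algebraMap F' F y) = β₂ (β₁ y))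
    (hcomm : ∀ y, β₂ (α₁ y) = α₂ (β₁ y))
    (P1 P2 : Place F₁ (κ b))
    (h12 : ∀ g, g ∈ P2.O ↔ w₁ g ∈ P1.O) (h12r : ∀ g, P2.redF g = P1.redF (w₁ g))
    (hα : ∀ g, α₂ g ∈ (P b).O ↔ g ∈ P1.O) (hαr : ∀ g, (P b).redF (α₂ g) = P1.redF g)
    (hβ₁ : ∀ y, y ∈ P'.O → β₁ y ∈ P1.O)
    (hint : ∀ y, y ∈ P'.O → (α₁.comp P'.O.subtype).IsIntegralElem (β₁ y))
    (q : ℕ) [Fact q.Prime] [CharP (κ b) q]
    (hfix : ∀ z : κ b, ∃ y : F, y ∈ (P b).O ∧ w y = y ∧ (P b).redF y = z ^ q) :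
    (P b).O.comap (w : F →+* F) = (P b).O ∧ (∀ x, (P b).redF (w x) = (P b).redF x) ∧
      (∀ g, β₂ g ∈ (P b).O ↔ g ∈ P2.O) ∧ ∀ g, (P b).redF (β₂ g) = P2.redF g := by
  have hw : ∀ y : F', y ∈ P'.O → w (algebraMap F' F y) ∈ (P b).O := by
    intro y hy
    rw [hwδ]
    refine map_mem_of_isIntegralElem (P b).O (α₁.comp P'.O.subtype) β₂ (fun r => ?_) (hint y hy)
    show β₂ (α₁ (r : F')) ∈ (P b).O
    rw [hcomm, hα]
    exact hβ₁ _ r.2
  have hcomap := comap_eq_of_perm D hdeg w b hw hperm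
  have hred := redF_equiv_eq (P b) w hcomap q hfix
  exact ⟨hcomap, hred, along_swap (P b) P1 P2 α₂ β₂ w w₁ hβ h12 h12r hα hαr hcomap hred⟩

end Main

end Fermat.Agent.S36lib.Mid
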