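/-
S36lib / Mid / Three  (helper8)

**Non-dependent wrappers for the tower `F' →(α₁,β₁) G ⇉(α₂,β₂) F`** (levels `M`, `M q`, `M q²`) in
helper7's `RamOverAlong` language (no `Algebra` instances in the statements; all residue fields
are ONE field `κ`, the residue extensions are ring endomorphisms `ι : κ →+* κ`).

* `val_eq_of_row`, `RamOverAlong.comp` : composition of records along `ψ₂ ∘ ψ₁`
  (`e = e₁ e₂`, `ι = ι₂ ∘ ι₁`);
* `finrankHom_comp`, `finiteHom_comp`, `finrankHom_id` : tower law for degrees along homs;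
* `ramDatum_const` : helper7's `RamDatum` for a finite family of places with CONSTANT residue field
  `κ` and residue embeddings `ιs i : κ' →+* κ` (algebra structures `ψ.toAlgebra`,
  `(ιs i).toAlgebra`);
* `isIntegralElem_of_mem_const` : an element of all the `O_i` of a complete family is integral over
  `ψ (O')`;
* `Row.mem_iff`, `Row.red'` : a row determines membership and reduction everywhere;
* `TowerData` : the records of the modular tower; `TowerData.ramDatum₃` (the complete family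
  `(v_a, v_b, v_c)` over `(F', v_M)` along `α₂ ∘ α₁`, `Σ e f = 1 + (q − 1) + q² = q (q + 1)`),
  `TowerData.isIntegral₃`, `TowerData.minpoly_coeff_mem₃`;
* **`TowerData.mid`** : `v_b ∘ w = v_b`, `red_b ∘ w = red_b`, and the row of `v_b` along `β₂`
  (`β₂ g ∈ O_b ↔ g ∈ O₀₁`, `red_b (β₂ g) = red₀₁ g`);
* `TowerData.rows` : the ten rows `Reg.Rows` of the tower.
-/
import Mathlib
import Fermat.Agent.S36lib.Norm.Along
import Fermat.Agent.S36lib.Norm.RamIntegral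
import Fermat.Agent.S36lib.Norm.RamWrap
import Fermat.Agent.S36lib.Mid.Swap
import Fermat.Agent.S36lib.Reg.Rows

set_option autoImplicit false
set_option linter.unusedSectionVars false
set_option linter.style.haveILetI false

noncomputable section

namespace Fermat.Agent.S36lib.Mid

open Fermat.Agent.S36lib.Norm Fermat.Agent.S36lib.Reg Module

/-! ### composition of records -/

section Comp

variable {F' G F : Type*} [Field F'] [Field G] [Field F]
variable {κ'' κ' κ : Type*} [Field κ''] [Field κ'] [Field κ]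

/-- a homomorphism mapping `O'` into `O` maps elements of equal valuation to elements of equal
valuation -/
theorem val_eq_of_mem (ψ : G →+* F) {O' : ValuationSubring G} {O : ValuationSubring F}
    (hmem : ∀ y : G, y ∈ O' → ψ y ∈ O) {x y : G} (hxy : O'.valuation x = O'.valuation y) :
    O.valuation (ψ x) = O.valuation (ψ y) := by
  rcases eq_or_ne y 0 with rfl | hy
  · rw [map_zero, Valuation.zero_iff] at hxy
    rw [hxy]
  have hx : x ≠ 0 := by
    rintro rfl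
    rw [map_zero] at hxy
    exact hy ((Valuation.zero_iff _).1 hxy.symm)
  have h1 : x * y⁻¹ ∈ O' := by
    rw [← O'.valuation_le_one_iff, map_mul, map_inv₀, hxy,
      mul_inv_cancel₀ ((Valuation.ne_zero_iff _).2 hy)]
  have h2 : y * x⁻¹ ∈ O' := by
    rw [← O'.valuation_le_one_iff, map_mul, map_inv₀, hxy,
      mul_inv_cancel₀ ((Valuation.ne_zero_iff _).2 hy)]
  have h3 := (O.valuation_le_one_iff _).2 (hmem _ h1)
  have h4 := (O.valuation_le_one_iff _).2 (hmem _ h2)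
  have hψx : O.valuation (ψ x) ≠ 0 := (Valuation.ne_zero_iff _).2 ((map_ne_zero ψ).2 hx)
  have hψy : O.valuation (ψ y) ≠ 0 := (Valuation.ne_zero_iff _).2 ((map_ne_zero ψ).2 hy)
  rw [map_mul, map_inv₀, map_mul, map_inv₀, ← div_eq_mul_inv, div_le_one₀ (zero_lt_iff.2 hψy)] at h3
  rw [map_mul, map_inv₀, map_mul, map_inv₀, ← div_eq_mul_inv, div_le_one₀ (zero_lt_iff.2 hψx)] at h4
  exact le_antisymm h3 h4

/-- **composition of records**: `P / P' / P''` along `ψ₂ ∘ ψ₁` -/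
theorem ramOverAlong_comp {ψ₁ : F' →+* G} {ψ₂ : G →+* F} {ι₁ : κ'' →+* κ'} {ι₂ : κ' →+* κ}
    {P'' : Place F' κ''} {P' : Place G κ'} {P : Place F κ} {π : F'} {π₁ : G} {ϖ : F} {e₁ e₂ : ℕ}
    (h₁ : RamOverAlong ψ₁ ι₁ P'' π P' π₁ e₁) (h₂ : RamOverAlong ψ₂ ι₂ P' π₁ P ϖ e₂) :
    RamOverAlong (ψ₂.comp ψ₁) (ι₂.comp ι₁) P'' π P ϖ (e₁ * e₂) where
  mem y hy := h₂.mem _ (h₁.mem y hy)
  red y hy := by
    show P.redF (ψ₂ (ψ₁ y)) = ι₂ (ι₁ (P''.redF y))
    rw [h₂.red _ (h₁.mem y hy), h₁.red y hy]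
  arch := h₂.arch
  unif := h₂.unif
  ram := by
    show P.O.valuation (ψ₂ (ψ₁ π)) = P.O.valuation ϖ ^ (e₁ * e₂)
    have h3 : P'.O.valuation (ψ₁ π) = P'.O.valuation (π₁ ^ e₁) := by rw [h₁.ram, map_pow]
    rw [val_eq_of_mem ψ₂ h₂.mem h3, map_pow, map_pow, h₂.ram, ← pow_mul, mul_comm]

end Comp

/-! ### degrees along homomorphisms -/

section Degree

variable {A B C : Type*} [Field A] [Field B] [Field C]

/-- tower law -/
theorem finrankHom_comp (ψ₁ : A →+* B) (ψ₂ : B →+* C) :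
    finrankHom (ψ₂.comp ψ₁) = finrankHom ψ₁ * finrankHom ψ₂ := by
  letI a1 : Algebra A B := ψ₁.toAlgebra
  letI a2 : Algebra B C := ψ₂.toAlgebra
  letI a3 : Algebra A C := (ψ₂.comp ψ₁).toAlgebra
  haveI : IsScalarTower A B C := IsScalarTower.of_algebraMap_eq fun _ => rfl
  exact (Module.finrank_mul_finrank A B C).symm

theorem finiteHom_comp (ψ₁ : A →+* B) (ψ₂ : B →+* C) (h₁ : FiniteHom ψ₁) (h₂ : FiniteHom ψ₂) :
    FiniteHom (ψ₂.comp ψ₁) := by
  letI a1 : Algebra A B := ψ₁.toAlgebra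
  letI a2 : Algebra B C := ψ₂.toAlgebra
  letI a3 : Algebra A C := (ψ₂.comp ψ₁).toAlgebra
  haveI : IsScalarTower A B C := IsScalarTower.of_algebraMap_eq fun _ => rfl
  haveI : Module.Finite A B := h₁
  haveI : Module.Finite B C := h₂
  exact Module.Finite.trans (R := A) B C

theorem finrankHom_id : finrankHom (RingHom.id A) = 1 := by
  letI : Algebra A A := (RingHom.id A).toAlgebra
  exact Module.finrank_self A

theorem finiteHom_id : FiniteHom (RingHom.id A) := by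
  letI : Algebra A A := (RingHom.id A).toAlgebra
  exact Module.Finite.self A

end Degree

/-! ### families with constant residue field -/

section Const

variable {F' F : Type*} [Field F'] [Field F] {κ' κ : Type*} [Field κ'] [Field κ]
variable {ι : Type*} [Fintype ι] [DecidableEq ι]
variable {WM : Place F' κ'} {π : F'}

/-- helper7's `RamDatum` for a family of places with constant residue field `κ`, residue embeddings
`ιs i`, along `ψ` -/
theorem ramDatum_const (ψ : F' →+* F) (ιs : ι → κ' →+* κ) (P : ι → Place F κ) (ϖ : ι → F)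
    (e : ι → ℕ) (hb : IsUnif WM.O π) (h : ∀ i, RamOverAlong ψ (ιs i) WM π (P i) (ϖ i) (e i))
    (hne : ∀ i j, i ≠ j → (P i).O ≠ (P j).O) :
    @RamDatum F' F _ _ ψ.toAlgebra κ' _ ι (fun _ => κ) (fun _ => inferInstance)
      (fun i => (ιs i).toAlgebra) WM π P ϖ e :=
  @RamDatum.of_ramOver F' F _ _ ψ.toAlgebra κ' _ ι _ _ (fun _ => κ) (fun _ => inferInstance)
    (fun i => (ιs i).toAlgebra) WM π P ϖ e hb (fun i => (h i).toRamOver) hne

/-- elements of all the valuation rings of a complete family are integral over `ψ (O')` -/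
theorem isIntegralElem_of_mem_const (ψ : F' →+* F) (ιs : ι → κ' →+* κ) (P : ι → Place F κ)
    (ϖ : ι → F) (e : ι → ℕ) (hb : IsUnif WM.O π)
    (h : ∀ i, RamOverAlong ψ (ιs i) WM π (P i) (ϖ i) (e i))
    (hne : ∀ i j, i ≠ j → (P i).O ≠ (P j).O) (hfin : FiniteHom ψ)
    (hιfin : ∀ i, FiniteHom (ιs i))
    (hdeg : ∑ i, e i * finrankHom (ιs i) = finrankHom ψ) {f : F} (hf : ∀ i, f ∈ (P i).O) :
    (ψ.comp WM.O.subtype).IsIntegralElem f := by
  have D := ramDatum_const ψ ιs P ϖ e hb h hne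
  exact @RamDatum.isIntegral_of_mem F' F _ _ ψ.toAlgebra κ' _ ι _ _ (fun _ => κ)
    (fun _ => inferInstance) (fun i => (ιs i).toAlgebra) WM π P ϖ e hfin hιfin D hdeg f hf

/-- the coefficients of the minimal polynomial (over `F'` along `ψ`) of an element of all the
valuation rings of a complete family lie in `O'` -/
theorem minpoly_coeff_mem_const (ψ : F' →+* F) (ιs : ι → κ' →+* κ) (P : ι → Place F κ)
    (ϖ : ι → F) (e : ι → ℕ) (hb : IsUnif WM.O π)
    (h : ∀ i, RamOverAlong ψ (ιs i) WM π (P i) (ϖ i) (e i))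
    (hne : ∀ i j, i ≠ j → (P i).O ≠ (P j).O) (hfin : FiniteHom ψ)
    (hιfin : ∀ i, FiniteHom (ιs i))
    (hdeg : ∑ i, e i * finrankHom (ιs i) = finrankHom ψ) {f : F} (hf : ∀ i, f ∈ (P i).O)
    (m : ℕ) : (@minpoly F' F _ _ ψ.toAlgebra f).coeff m ∈ WM.O := by
  have D := ramDatum_const ψ ιs P ϖ e hb h hne
  exact @RamDatum.minpoly_coeff_mem F' F _ _ ψ.toAlgebra κ' _ ι _ _ (fun _ => κ)
    (fun _ => inferInstance) (fun i => (ιs i).toAlgebra) WM π P ϖ e hfin hιfin D hdeg f hf m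

end Const

/-! ### rows determine membership and reduction -/

section RowIff

variable {G F : Type*} [Field G] [Field F] {κ' κ : Type*} [Field κ'] [Field κ]
variable {ψ : G →+* F} {ι : κ' →+* κ} {P' : Place G κ'} {P : Place F κ}

theorem _root_.Fermat.Agent.S36lib.Reg.Row.mem_iff (h : Row ψ ι P' P) (g : G) : ψ g ∈ P.O ↔ g ∈ P'.O := by
  refine ⟨fun hg => ?_, h.mem g⟩
  by_contra hn
  have hg0 : g ≠ 0 := by
    rintro rfl
    exact hn (zero_mem _)
  have hinv : g⁻¹ ∈ P'.O := (P'.O.mem_or_inv_mem g).resolve_left hn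
  have hlt : P'.O.valuation g⁻¹ < 1 := by
    rw [valuation_lt_one_iff_inv_not_mem P'.O (inv_ne_zero hg0), inv_inv]
    exact hn
  have hred : P.redF (ψ g⁻¹) = 0 := by
    rw [h.red _ hinv, P'.redF_eq_zero_of_lt hlt, map_zero]
  have hmem : ψ g⁻¹ ∈ P.O := h.mem _ hinv
  have hlt' : P.O.valuation (ψ g⁻¹) < 1 := (P.redF_eq_zero_iff hmem).1 hred
  rw [map_inv₀, valuation_lt_one_iff_inv_not_mem P.O (inv_ne_zero ((map_ne_zero ψ).2 hg0)),
    inv_inv] at hlt'
  exact hlt' hg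

theorem _root_.Fermat.Agent.S36lib.Reg.Row.red' (h : Row ψ ι P' P) (g : G) : P.redF (ψ g) = ι (P'.redF g) := by
  by_cases hg : g ∈ P'.O
  · exact h.red g hg
  · rw [P'.redF_of_not_mem hg, map_zero, P.redF_of_not_mem (fun hh => hg ((h.mem_iff g).1 hh))]

/-- a record is in particular a row -/
theorem row_of_ramOverAlong {π : G} {ϖ : F} {e : ℕ} (h : RamOverAlong ψ ι P' π P ϖ e) :
    Row ψ ι P' P :=
  ⟨h.mem, h.red⟩

end RowIff

/-! ### the records of the tower -/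

section Tower

variable {F' G F κ : Type*} [Field F'] [Field G] [Field F] [Field κ]

/-- **The records of the tower** `F' →(α₁,β₁) G ⇉(α₂,β₂) F`: the two places `W₁ W₂` of `G` over the
place `WM` of `F'` (along `α₁`: unramified, residue embeddings `id`, `V`), the three places
`Pa Pb Pc` of `F` (along `α₂`: `Pa / W₁` (`id`, `e = 1`), `Pb / W₁` (`id`, `e = eb`),
`Pc / W₂` (`V`, `e = 1`)), the rows of `W₁ W₂` along `β₁`, distinctness and the degrees. -/
structure TowerData (α₁ β₁ : F' →+* G) (α₂ : G →+* F) (V : κ →+* κ) (q eb : ℕ)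
    (WM : Place F' κ) (W₁ W₂ : Place G κ) (Pa Pb Pc : Place F κ) (π : F') (π₁ : G)
    (ϖa ϖb ϖc : F) : Prop where
  base : IsUnif WM.O π
  w₁α : RamOverAlong α₁ (RingHom.id κ) WM π W₁ π₁ 1
  w₂α : RamOverAlong α₁ V WM π W₂ π₁ 1
  w₁β : Row β₁ V WM W₁
  w₂β : Row β₁ (RingHom.id κ) WM W₂
  pa : RamOverAlong α₂ (RingHom.id κ) W₁ π₁ Pa ϖa 1
  pb : RamOverAlong α₂ (RingHom.id κ) W₁ π₁ Pb ϖb eb
  pc : RamOverAlong α₂ V W₂ π₁ Pc ϖc 1
  ne₁₂ : W₁.O ≠ W₂.O
  ne_ab : Pa.O ≠ Pb.O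
  ne_ac : Pa.O ≠ Pc.O
  ne_bc : Pb.O ≠ Pc.O
  he : 1 + eb = q
  fin₁ : FiniteHom α₁
  deg₁ : finrankHom α₁ = q + 1
  fin₂ : FiniteHom α₂
  deg₂ : finrankHom α₂ = q
  finV : FiniteHom V
  degV : finrankHom V = q

namespace TowerData

variable {α₁ β₁ : F' →+* G} {α₂ : G →+* F} {V : κ →+* κ} {q eb : ℕ}
  {WM : Place F' κ} {W₁ W₂ : Place G κ} {Pa Pb Pc : Place F κ} {π : F'} {π₁ : G}
  {ϖa ϖb ϖc : F}

/-- the residue embeddings of the three places of `F` over `WM` -/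
def embs₃ (V : κ →+* κ) : Fin 3 → κ →+* κ := ![RingHom.id κ, RingHom.id κ, V.comp V]

/-- the three places as a family -/
def places₃ (Pa Pb Pc : Place F κ) : Fin 3 → Place F κ := ![Pa, Pb, Pc]

/-- the residue embeddings of the two places of `G` over `WM` -/
def embs₂ (V : κ →+* κ) : Fin 2 → κ →+* κ := ![RingHom.id κ, V]

/-- the two places as a family -/
def places₂ (W₁ W₂ : Place G κ) : Fin 2 → Place G κ := ![W₁, W₂]

variable (T : TowerData α₁ β₁ α₂ V q eb WM W₁ W₂ Pa Pb Pc π π₁ ϖa ϖb ϖc)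

include T

/-- the records of level `M q` as a family -/
theorem over₂ : ∀ i, RamOverAlong α₁ (embs₂ V i) WM π (places₂ W₁ W₂ i) ((![π₁, π₁] : Fin 2 → G) i)
    ((![1, 1] : Fin 2 → ℕ) i) := by
  intro i
  fin_cases i
  · exact T.w₁α
  · exact T.w₂α

theorem ne₂ : ∀ i j, i ≠ j → (places₂ W₁ W₂ i).O ≠ (places₂ W₁ W₂ j).O := by
  intro i j hij
  fin_cases i <;> fin_cases j
  · exact absurd rfl hij
  · exact T.ne₁₂
  · exact T.ne₁₂.symm
  · exact absurd rfl hij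

theorem fin_embs₂ : ∀ i, FiniteHom (embs₂ V i) := by
  intro i
  fin_cases i
  · exact finiteHom_id
  · exact T.finV

theorem deg_sum₂ :
    ∑ i, (![1, 1] : Fin 2 → ℕ) i * finrankHom (embs₂ V i) = finrankHom α₁ := by
  rw [Fin.sum_univ_two, T.deg₁]
  show 1 * finrankHom (RingHom.id κ) + 1 * finrankHom V = q + 1
  rw [finrankHom_id, T.degV]
  ring

/-- **integrality at level `M q`**: an element of `W₁.O ∩ W₂.O` is integral over `α₁ (WM.O)` -/
theorem isIntegral₂ {f : G} (h₁ : f ∈ W₁.O) (h₂ : f ∈ W₂.O) :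
    (α₁.comp WM.O.subtype).IsIntegralElem f := by
  refine isIntegralElem_of_mem_const α₁ (embs₂ V) (places₂ W₁ W₂) _ _ T.base T.over₂ T.ne₂ T.fin₁
    T.fin_embs₂ T.deg_sum₂ (fun i => ?_)
  fin_cases i
  · exact h₁
  · exact h₂

/-- the three composed records of level `M q²` over level `M` -/
theorem over₃ : ∀ i, RamOverAlong (α₂.comp α₁) (embs₃ V i) WM π (places₃ Pa Pb Pc i)
    ((![ϖa, ϖb, ϖc] : Fin 3 → F) i) ((![1, eb, 1] : Fin 3 → ℕ) i) := by
  intro i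
  fin_cases i
  · have h := ramOverAlong_comp T.w₁α T.pa
    rwa [one_mul] at h
  · have h := ramOverAlong_comp T.w₁α T.pb
    rwa [one_mul] at h
  · have h := ramOverAlong_comp T.w₂α T.pc
    rwa [one_mul] at h

theorem ne₃ : ∀ i j, i ≠ j → (places₃ Pa Pb Pc i).O ≠ (places₃ Pa Pb Pc j).O := by
  intro i j hij
  fin_cases i <;> fin_cases j
  · exact absurd rfl hij
  · exact T.ne_ab
  · exact T.ne_ac
  · exact T.ne_ab.symm
  · exact absurd rfl hij
  · exact T.ne_bc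
  · exact T.ne_ac.symm
  · exact T.ne_bc.symm
  · exact absurd rfl hij

theorem fin_embs₃ : ∀ i, FiniteHom (embs₃ V i) := by
  intro i
  fin_cases i
  · exact finiteHom_id
  · exact finiteHom_id
  · exact finiteHom_comp V V T.finV T.finV

theorem fin₃ : FiniteHom (α₂.comp α₁) := finiteHom_comp α₁ α₂ T.fin₁ T.fin₂

theorem deg₃ : finrankHom (α₂.comp α₁) = q * (q + 1) := by
  rw [finrankHom_comp, T.deg₁, T.deg₂, mul_comm]

/-- **`Σ e f = 1 + (q − 1) + q² = q (q + 1)`** -/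
theorem deg_sum₃ :
    ∑ i, (![1, eb, 1] : Fin 3 → ℕ) i * finrankHom (embs₃ V i) = finrankHom (α₂.comp α₁) := by
  rw [Fin.sum_univ_three, T.deg₃]
  show 1 * finrankHom (RingHom.id κ) + eb * finrankHom (RingHom.id κ) +
    1 * finrankHom (V.comp V) = q * (q + 1)
  rw [finrankHom_id, finrankHom_comp, T.degV, ← T.he]
  ring

/-- **the complete family `(v_a, v_b, v_c)` over `(F', v_M)`** as helper7's `RamDatum`
(`algebraMap F' F = α₂ ∘ α₁`) -/
theorem ramDatum₃ :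
    @RamDatum F' F _ _ (α₂.comp α₁).toAlgebra κ _ (Fin 3) (fun _ => κ) (fun _ => inferInstance)
      (fun i => (embs₃ V i).toAlgebra) WM π (places₃ Pa Pb Pc) ![ϖa, ϖb, ϖc] ![1, eb, 1] :=
  ramDatum_const (α₂.comp α₁) (embs₃ V) (places₃ Pa Pb Pc) _ _ T.base T.over₃ T.ne₃

/-- **integrality at level `M q²`**: an element of `O_a ∩ O_b ∩ O_c` is integral over
`α₂ α₁ (WM.O)` -/
theorem isIntegral₃ {f : F} (ha : f ∈ Pa.O) (hb : f ∈ Pb.O) (hc : f ∈ Pc.O) :
    ((α₂.comp α₁).comp WM.O.subtype).IsIntegralElem f := by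
  refine isIntegralElem_of_mem_const (α₂.comp α₁) (embs₃ V) (places₃ Pa Pb Pc) _ _ T.base T.over₃
    T.ne₃ T.fin₃ T.fin_embs₃ T.deg_sum₃ (fun i => ?_)
  fin_cases i
  · exact ha
  · exact hb
  · exact hc

/-- the minimal polynomial over `F'` (along `α₂ ∘ α₁`) of an element of `O_a ∩ O_b ∩ O_c` has
coefficients in `WM.O` -/
theorem minpoly_coeff_mem₃ {f : F} (ha : f ∈ Pa.O) (hb : f ∈ Pb.O) (hc : f ∈ Pc.O) (m : ℕ) :
    (@minpoly F' F _ _ (α₂.comp α₁).toAlgebra f).coeff m ∈ WM.O := by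
  refine minpoly_coeff_mem_const (α₂.comp α₁) (embs₃ V) (places₃ Pa Pb Pc) _ _ T.base T.over₃
    T.ne₃ T.fin₃ T.fin_embs₃ T.deg_sum₃ (fun i => ?_) m
  fin_cases i
  · exact ha
  · exact hb
  · exact hc

/-- **`v_b` along `β₂`** from the records of the tower, the involutions `w` (`= w_{q²}`) of `F`
and `w₁` (`= w_q`) of `G`, and `V (κ) ⊇ κ^q`. -/
theorem mid [hq : Fact q.Prime] [CharP κ q] (β₂ : G →+* F) (w : F ≃+* F) (w₁ : G →+* G)
    (hca : ∀ x, x ∈ Pc.O ↔ w x ∈ Pa.O) (hac : ∀ x, x ∈ Pa.O ↔ w x ∈ Pc.O)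
    (hβ : ∀ g, β₂ g = w (α₂ (w₁ g)))
    (hwδ : ∀ y, w (α₂ (α₁ y)) = β₂ (β₁ y))
    (hwσ : ∀ y, w (α₂ (β₁ y)) = α₂ (β₁ y))
    (hcomm : ∀ y, β₂ (α₁ y) = α₂ (β₁ y))
    (h12 : ∀ g, g ∈ W₂.O ↔ w₁ g ∈ W₁.O) (h12r : ∀ g, W₂.redF g = W₁.redF (w₁ g))
    (hVpow : ∀ z : κ, ∃ z', V z' = z ^ q) :
    Pb.O.comap (w : F →+* F) = Pb.O ∧ (∀ x, Pb.redF (w x) = Pb.redF x) ∧
      (∀ g, β₂ g ∈ Pb.O ↔ g ∈ W₂.O) ∧ ∀ g, Pb.redF (β₂ g) = W₂.redF g := by
  have hrow : Row α₂ (RingHom.id κ) W₁ Pb := row_of_ramOverAlong T.pb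
  have hperm : ∀ i : Fin 3, i ≠ 1 → ∃ j : Fin 3, j ≠ 1 ∧
      (places₃ Pa Pb Pc j).O.comap (w : F →+* F) = (places₃ Pa Pb Pc i).O := by
    intro i hi
    fin_cases i
    · refine ⟨2, by decide, ?_⟩
      ext x
      exact (hac x).symm
    · exact absurd rfl hi
    · refine ⟨0, by decide, ?_⟩
      ext x
      exact (hca x).symm
  have hfix : ∀ z : κ, ∃ y : F, y ∈ Pb.O ∧ w y = y ∧ Pb.redF y = z ^ q := by
    intro z
    obtain ⟨z', hz'⟩ := hVpow z
    obtain ⟨g, hg, hgr⟩ := WM.exists_redF_eq z'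
    refine ⟨α₂ (β₁ g), hrow.mem _ (T.w₁β.mem g hg), hwσ g, ?_⟩
    rw [hrow.red _ (T.w₁β.mem g hg), T.w₁β.red g hg, hgr, ← hz']
    rfl
  exact @mid_along_beta F' G F _ _ _ (α₂.comp α₁).toAlgebra κ _ (Fin 3) _ _ (fun _ => κ)
    (fun _ => inferInstance) (fun i => (embs₃ V i).toAlgebra) WM π (places₃ Pa Pb Pc)
    ![ϖa, ϖb, ϖc] ![1, eb, 1] T.fin₃ T.fin_embs₃ T.ramDatum₃ T.deg_sum₃ w 1 hperm α₁ β₁ α₂ β₂ w₁
    hβ hwδ hcomm W₁ W₂ h12 h12r (fun g => hrow.mem_iff g) (fun g => hrow.red' g) T.w₁β.mem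
    (fun y hy => T.isIntegral₂ (T.w₁β.mem y hy) (T.w₂β.mem y hy)) q hq inferInstance hfix

/-- **the ten rows** (`Reg.Rows`) from the records, the two rows of `v_a`, `v_c` along `β₂` and the
hypotheses of `mid` -/
theorem rows [hq : Fact q.Prime] [CharP κ q] (β₂ : G →+* F) (w : F ≃+* F) (w₁ : G →+* G)
    (p₁β : Row β₂ V W₁ Pa) (p₃β : Row β₂ (RingHom.id κ) W₂ Pc)
    (hca : ∀ x, x ∈ Pc.O ↔ w x ∈ Pa.O) (hac : ∀ x, x ∈ Pa.O ↔ w x ∈ Pc.O)
    (hβ : ∀ g, β₂ g = w (α₂ (w₁ g)))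
    (hwδ : ∀ y, w (α₂ (α₁ y)) = β₂ (β₁ y))
    (hwσ : ∀ y, w (α₂ (β₁ y)) = α₂ (β₁ y))
    (hcomm : ∀ y, β₂ (α₁ y) = α₂ (β₁ y))
    (h12 : ∀ g, g ∈ W₂.O ↔ w₁ g ∈ W₁.O) (h12r : ∀ g, W₂.redF g = W₁.redF (w₁ g))
    (hVpow : ∀ z : κ, ∃ z', V z' = z ^ q) :
    Rows α₁ β₁ α₂ β₂ V WM W₁ W₂ Pa Pb Pc := by
  obtain ⟨-, -, hm, hr⟩ := T.mid β₂ w w₁ hca hac hβ hwδ hwσ hcomm h12 h12r hVpow
  exact
    { comm := hcomm
      w₁α := row_of_ramOverAlong T.w₁α
      w₁β := T.w₁β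
      w₂α := row_of_ramOverAlong T.w₂α
      w₂β := T.w₂β
      p₁α := row_of_ramOverAlong T.pa
      p₁β := p₁β
      p₂α := row_of_ramOverAlong T.pb
      p₂β := ⟨fun g hg => (hm g).2 hg, fun g _ => hr g⟩
      p₃α := row_of_ramOverAlong T.pc
      p₃β := p₃β }

end TowerData

end Tower

end Fermat.Agent.S36lib.Mid
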