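/-
S36lib / Mid / OverM  (helper8)

**The tower record of the modular places** (levels `M`, `M q`, `M q²`; `K`-rational places over
`(Kfix A, Wfix A)` on the inertia-fixed function fields).

For Gauss data `D1 D2` (level `M q`), `Da Dc` (level `M q²`) over `(ℚ̄, A)` with LSb's / helper9's
characterisations (`IsGaussOne`, `IsGaussTwo`, `IsGaussInf`, `IsGaussZero₂`), ANY `K`-rational data
`WM' W₁' W₂' Pa' Pc'` compatible with them (helper1's `Desc2.Compat`; e.g. `gaussMK`, `gaussOneK`,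
`gaussTwoK`, `gaussInfK₂`, `gaussZeroK₂`) and ANY ramified Gauss datum `V₂` on `fixF (M q²) I` with the
record of `v_b` over `v₁₀` along `alphaFix` (helper2's Eisenstein datum):

* `towerData`  : the `Mid.TowerData` record;
* `mid_beta`   : **`v_b ∘ w_{q²} = v_b`, and `v_b` along `betaFix` is `v₀₁`**;
* `rows`       : the ten rows `Reg.Rows` of the `K`-rational places;
* `ramDatum`, `minpoly_coeff_mem`, `isIntegral` : `(v_a, v_b, v_c)` are all the extensions of `v_M`.
-/
import Mathlib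
import Fermat.Agent.S36lib.Mid.Three
import Fermat.Agent.S36lib.Mid.FixDegree
import Fermat.Agent.S36lib.Desc2.Places
import Fermat.Agent.S36lib.Val.Fix
import Fermat.Agent.S36lib.Val.Ne
import Fermat.Agent.S36lib.Eis.Ram
import Fermat.Agent.S36lib.Norm.RestrictAlong
import Fermat.Agent.S36lib.Norm.ThickBridge
import Fermat.Agent.LSc.Inst.DegInst
import Fermat.Agent.LSb.Frame.Modular

set_option autoImplicit false
set_option linter.unusedSectionVars false
set_option linter.unusedVariables false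
set_option linter.style.haveILetI false

noncomputable section

namespace Fermat.Agent.S36lib.Mid

open ModularCurve Fermat.Agent.S18lib Fermat.Agent.S18lib.V Fermat.Agent.LSb.Val
open Fermat.Agent.LSb Fermat.Agent.S36lib.AL
open Fermat.Agent.S36lib.Desc Fermat.Agent.S36lib.Desc2 Fermat.Agent.S36lib.Norm
open Fermat.Agent.S36lib.Val Fermat.Agent.S36lib.Reg Fermat.Agent.S36lib.Thick
open Fermat.Agent.S29lib.GH IsLocalRing

local notation "Qb" => AlgebraicClosure ℚ
local notation "GQ" => (AlgebraicClosure ℚ ≃ₐ[ℚ] AlgebraicClosure ℚ)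

section Degree

variable {A B : Type*} [Field A] [Field B]

/-- positive degree implies finiteness -/
theorem finiteHom_of_finrankHom_pos {ψ : A →+* B} (h : 0 < finrankHom ψ) : FiniteHom ψ := by
  letI : Algebra A B := ψ.toAlgebra
  exact Module.finite_of_finrank_pos h

end Degree

/-! ### the `K`-rational involutions -/

section Invol

variable (M q : ℕ) [NeZero M] [NeZero q] (hq' : q.Prime) (hqM' : ¬ q ∣ M) (H : Subgroup GQ)

/-- `w_q` on the fixed field of level `M q` -/
def wqFix : fixF (M * q) H →+* fixF (M * q) H :=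
  fixMap H ((wq M q hq' hqM' : FBar (M * q) ≃ₐ[Qb] FBar (M * q)) : FBar (M * q) →+* FBar (M * q))
    (fun σ _ x => (wq_arithmeticRingAut M q hq' hqM' σ x).symm)

theorem coe_wqFix (x : fixF (M * q) H) :
    ((wqFix M q hq' hqM' H x : fixF (M * q) H) : FBar (M * q)) = wq M q hq' hqM' (x : FBar (M * q)) :=
  rfl

/-- `w_{q²}` on the fixed field of level `M q²`, as a ring homomorphism -/
def wqqFixHom : fixF (M * q * q) H →+* fixF (M * q * q) H :=
  fixMap H ((wqq M q hq' hqM' : FBar (M * q * q) ≃ₐ[Qb] FBar (M * q * q)) :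
      FBar (M * q * q) →+* FBar (M * q * q))
    (fun σ _ x => (wqq_arithmeticRingAut M q hq' hqM' σ x).symm)

theorem coe_wqqFixHom (x : fixF (M * q * q) H) :
    ((wqqFixHom M q hq' hqM' H x : fixF (M * q * q) H) : FBar (M * q * q)) =
      wqq M q hq' hqM' (x : FBar (M * q * q)) := rfl

theorem wqqFixHom_wqqFixHom (x : fixF (M * q * q) H) :
    wqqFixHom M q hq' hqM' H (wqqFixHom M q hq' hqM' H x) = x := by
  apply Subtype.ext
  rw [coe_wqqFixHom, coe_wqqFixHom, wqq_wqq]

/-- **`w_{q²}` on the fixed field of level `M q²`** -/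
def wqqFix : fixF (M * q * q) H ≃+* fixF (M * q * q) H :=
  { wqqFixHom M q hq' hqM' H with
    invFun := wqqFixHom M q hq' hqM' H
    left_inv := wqqFixHom_wqqFixHom M q hq' hqM' H
    right_inv := wqqFixHom_wqqFixHom M q hq' hqM' H }

theorem coe_wqqFix (x : fixF (M * q * q) H) :
    ((wqqFix M q hq' hqM' H x : fixF (M * q * q) H) : FBar (M * q * q)) =
      wqq M q hq' hqM' (x : FBar (M * q * q)) := rfl

/-- `β = w_{q²} ∘ α ∘ w_q` -/
theorem betaFix_eq_wqqFix (g : fixF (M * q) H) :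
    betaFix M q H g = wqqFix M q hq' hqM' H (alphaFix M q H (wqFix M q hq' hqM' H g)) := by
  apply Subtype.ext
  rw [coe_wqqFix, coe_alphaFix, coe_wqFix, coe_betaFix, wqq_alpha, wq_wq]

/-- `w_{q²} ∘ α ∘ α = β ∘ β` -/
theorem wqqFix_alpha_alpha (y : fixF M H) :
    wqqFix M q hq' hqM' H (alphaFix M q H (alphaFixM M q H y)) =
      betaFix M q H (betaFixM M q H y) := by
  apply Subtype.ext
  rw [coe_wqqFix, coe_alphaFix, coe_alphaFixM, coe_betaFix, coe_betaFixM]
  exact wqq_alpha_alpha M q hq' hqM' _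

/-- `w_{q²}` fixes `α ∘ β` -/
theorem wqqFix_alpha_beta (y : fixF M H) :
    wqqFix M q hq' hqM' H (alphaFix M q H (betaFixM M q H y)) =
      alphaFix M q H (betaFixM M q H y) := by
  apply Subtype.ext
  haveI : Fact q.Prime := ⟨hq'⟩
  rw [coe_wqqFix, coe_alphaFix, coe_betaFixM]
  exact wqq_tau₁ M q hqM' _

end Invol

section General

variable {M q : ℕ} [NeZero M] [NeZero q] [hq : Fact q.Prime] {A : ValuationSubring Qb}
  {hqM : ¬ q ∣ M} (hA : A.LiesOverPrime q)

variable {D1 D2 : GaussDatum A (FBar (M * q)) (FRes A M)}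
variable {Da Dc : GaussDatum A (FBar (M * q * q)) (FRes A M)}
variable [Algebra (ResidueField (Wfix A)) (FRes A M)]
variable {WM' : GaussDatum (Wfix A) (fixF M (A.inertiaSubgroupIn ℚ)) (FRes A M)}
variable {W₁' W₂' : GaussDatum (Wfix A) (fixF (M * q) (A.inertiaSubgroupIn ℚ)) (FRes A M)}
variable {Pa' Pc' : GaussDatum (Wfix A) (fixF (M * q * q) (A.inertiaSubgroupIn ℚ)) (FRes A M)}

/-- the uniformizer `q` of level `N` -/
abbrev qFix (A : ValuationSubring Qb) (q N : ℕ) : fixF N (A.inertiaSubgroupIn ℚ) :=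
  algebraMap (Kfix A) (fixF N (A.inertiaSubgroupIn ℚ)) ((q : ℕ) : Kfix A)

/-- `j` of level `M`, as an element of the fixed field -/
def jLevM (M : ℕ) [NeZero M] (H : Subgroup GQ) : fixF M H :=
  ⟨Gin0.jF M, by
    have h : Gin0.jF M = jd M 1 (one_dvd M) := by
      apply Subtype.ext
      rw [Gin0.coe_jF, coe_jd_eq, qExpand_one_apply]
    rw [h]
    exact Desc2.jd_mem_fixF H 1 (one_dvd M)⟩

theorem coe_jLevM (M : ℕ) [NeZero M] (H : Subgroup GQ) :
    ((jLevM M H : fixF M H) : FBar M) = Gin0.jF M := rfl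

include hA in
/-- **the two `K`-rational Gauss valuations of level `M q` are different** (the `K`-rational element
`β j - (α j) ^ q` lies in the maximal ideal of the first and is a unit of the second) -/
theorem gaussK_O_ne (h1 : Old.IsGaussOne D1)
    (h2 : Old.IsGaussTwo D1 D2
      ((wq M q hq.out hqM : FBar (M * q) ≃ₐ[Qb] FBar (M * q)) : FBar (M * q) →+* FBar (M * q)))
    (c1 : Compat D1 W₁') (c2 : Compat D2 W₂') : W₁'.O ≠ W₂'.O := by
  intro heq
  have hwq : ∀ x : FBar (M * q), ((wq M q hq.out hqM : FBar (M * q) ≃ₐ[Qb] FBar (M * q)) :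
      FBar (M * q) →+* FBar (M * q)) (((wq M q hq.out hqM : FBar (M * q) ≃ₐ[Qb] FBar (M * q)) :
      FBar (M * q) →+* FBar (M * q)) x) = x := fun x => wq_wq M q hq.out hqM x
  have hfr := Frame.frameM (M := M) (q := q) (A := A) hqM hA
  set jM := Gin0.jF M with hjM
  have hjO : jM ∈ (V.gaussDatum M A hqM hA).O := hfr.y_mem
  set u : FBar (M * q) := Old.beta M q jM - (Old.alpha M q jM) ^ q with hu
  have ha1 : Old.alpha M q jM ∈ D1.O := (Old.alpha_mem_iff hqM hA h1 jM).2 hjO
  have hb1 : Old.beta M q jM ∈ D1.O := (Old.beta_mem_iff hqM hA h1 jM).2 hjO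
  have ha2 : Old.alpha M q jM ∈ D2.O := (Old.alpha_mem_iff₂ hqM hA h1 h2 jM).2 hjO
  have hb2 : Old.beta M q jM ∈ D2.O := (Frame.beta_mem_iff₂ hqM hA h1 h2 hwq jM).2 hjO
  have hu1 : D1.redF u = 0 := by
    rw [hu, D1.redF_sub hb1 (D1.O.pow_mem ha1 q), D1.redF_pow ha1, Old.redF_beta hqM hA h1,
      Old.redF_alpha hqM hA h1, Frame.redF_jF hqM hA, Frame.Vq_jRes hA, sub_self]
  have hu2 : D2.redF u = V.jRes M A - (V.jRes M A ^ q) ^ q := by
    rw [hu, D2.redF_sub hb2 (D2.O.pow_mem ha2 q), D2.redF_pow ha2,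
      Frame.redF_beta₂ hqM hA h1 h2 hwq, Old.redF_alpha₂ hqM hA h1 h2, Frame.redF_jF hqM hA,
      Frame.Vq_jRes hA]
  have hu2ne : D2.redF u ≠ 0 := by
    rw [hu2, ← pow_mul]
    intro h0
    have h2' : 2 ≤ q * q := by
      have := hq.out.two_le
      nlinarith
    apply jRes_pow_sub_ne_zero (M := M) (A := A) h2'
    rw [← neg_sub, h0, neg_zero]
  have huO1 : u ∈ D1.O := D1.O.sub_mem hb1 (D1.O.pow_mem ha1 q)
  -- the `K`-rational element
  set uK : fixF (M * q) (A.inertiaSubgroupIn ℚ) :=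
    betaFixM M q (A.inertiaSubgroupIn ℚ) (jLevM M (A.inertiaSubgroupIn ℚ)) -
      (alphaFixM M q (A.inertiaSubgroupIn ℚ) (jLevM M (A.inertiaSubgroupIn ℚ))) ^ q with huK
  have hcoe : algebraMap (fixF (M * q) (A.inertiaSubgroupIn ℚ)) (FBar (M * q)) uK = u := rfl
  refine Val.not_le_of_redF W₁' W₂' (g := uK) ?_ ?_ ?_ (le_of_eq heq.symm)
  · rw [c1.mem, hcoe]
    exact huO1
  · rw [c1.red, hcoe]
    exact hu1
  · rw [c2.red, hcoe]
    exact hu2ne

/-- **the tower record of the modular places** -/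
theorem towerData (h1 : Old.IsGaussOne D1)
    (h2 : Old.IsGaussTwo D1 D2
      ((wq M q hq.out hqM : FBar (M * q) ≃ₐ[Qb] FBar (M * q)) : FBar (M * q) →+* FBar (M * q)))
    (ha : IsGaussInf Da) (hc : IsGaussZero₂ M q A hqM Da Dc)
    (cM : Compat (V.gaussDatum M A hqM hA) WM') (c1 : Compat D1 W₁') (c2 : Compat D2 W₂')
    (ca : Compat Da Pa') (cc : Compat Dc Pc')
    (V₂ : RamGaussDatum (Wfix A) (fixF (M * q * q) (A.inertiaSubgroupIn ℚ)) (FRes A M)) {eb : ℕ}
    (pb : RamOverAlong (alphaFix M q (A.inertiaSubgroupIn ℚ)) (RingHom.id (FRes A M)) (ofGauss W₁')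
      (qFix A q (M * q)) (ofRamGauss V₂) V₂.unif eb)
    (he : 1 + eb = q) (hab : Pa'.O ≠ V₂.O) (hbc : V₂.O ≠ Pc'.O) :
    TowerData (alphaFixM M q (A.inertiaSubgroupIn ℚ)) (betaFixM M q (A.inertiaSubgroupIn ℚ))
      (alphaFix M q (A.inertiaSubgroupIn ℚ)) (Unit.VqR (M := M) hA) q eb
      (ofGauss WM') (ofGauss W₁') (ofGauss W₂') (ofGauss Pa') (ofRamGauss V₂) (ofGauss Pc')
      (qFix A q M) (qFix A q (M * q)) (qFix A q (M * q * q)) V₂.unif (qFix A q (M * q * q)) := by
  have hR := rankOneDvd_Wfix hq.out hA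
  have hπ := isUnif_Wfix hq.out hA
  have h1i : IsGaussInf D1 := isGaussInf_of_isGaussOne hqM hA h1
  have hwq : ∀ x : FBar (M * q), ((wq M q hq.out hqM : FBar (M * q) ≃ₐ[Qb] FBar (M * q)) :
      FBar (M * q) →+* FBar (M * q)) (((wq M q hq.out hqM : FBar (M * q) ≃ₐ[Qb] FBar (M * q)) :
      FBar (M * q) →+* FBar (M * q)) x) = x := fun x => wq_wq M q hq.out hqM x
  have hdegV : finrankHom (Unit.VqR (M := M) hA) = q :=
    Fermat.Agent.LSc.Inst.finrank_Vq_toAlgebra hqM hA h1 h2 hwq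
  have hqpos : 0 < q := hq.out.pos
  exact
    { base := isUnif_ofGauss WM' hπ
      w₁α := ramOverAlong_of_compat cM c1 (heckeAlphaBar Qb M q).toRingHom
        (alphaFixM M q (A.inertiaSubgroupIn ℚ)) (RingHom.id _) (fun _ => rfl)
        (fun y hy => (Old.alpha_mem_iff hqM hA h1 y).2 hy)
        (fun y _ => Old.redF_alpha hqM hA h1 y) hR hπ
        (fun c => alphaFixM_algebraMap M q _ c)
      w₂α := ramOverAlong_of_compat cM c2 (heckeAlphaBar Qb M q).toRingHom
        (alphaFixM M q (A.inertiaSubgroupIn ℚ)) (Unit.VqR (M := M) hA) (fun _ => rfl)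
        (fun y hy => (Old.alpha_mem_iff₂ hqM hA h1 h2 y).2 hy)
        (fun y _ => Old.redF_alpha₂ hqM hA h1 h2 y) hR hπ
        (fun c => alphaFixM_algebraMap M q _ c)
      w₁β :=
        { mem := fun y hy => by
            show betaFixM M q _ y ∈ W₁'.O
            rw [c1.mem]
            exact (Old.beta_mem_iff hqM hA h1 _).2 ((cM.mem y).1 hy)
          red := fun y _ => by
            show W₁'.redF (betaFixM M q _ y) = Unit.VqR (M := M) hA (WM'.redF y)
            rw [c1.red, cM.red]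
            exact Old.redF_beta hqM hA h1 _ }
      w₂β :=
        { mem := fun y hy => by
            show betaFixM M q _ y ∈ W₂'.O
            rw [c2.mem]
            exact (Frame.beta_mem_iff₂ hqM hA h1 h2 hwq _).2 ((cM.mem y).1 hy)
          red := fun y _ => by
            show W₂'.redF (betaFixM M q _ y) = WM'.redF y
            rw [c2.red, cM.red]
            exact Frame.redF_beta₂ hqM hA h1 h2 hwq _ }
      pa := ramOverAlong_of_compat c1 ca (heckeAlphaBar Qb (M * q) q).toRingHom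
        (alphaFix M q (A.inertiaSubgroupIn ℚ)) (RingHom.id _) (fun _ => rfl)
        (fun y hy => (h1i.alpha_mem_iff ha y).2 hy)
        (fun y _ => h1i.redF_alpha ha y) hR hπ
        (fun c => alphaFix_algebraMap M q _ c)
      pb := pb
      pc := ramOverAlong_of_compat c2 cc (heckeAlphaBar Qb (M * q) q).toRingHom
        (alphaFix M q (A.inertiaSubgroupIn ℚ)) (Unit.VqR (M := M) hA) (fun _ => rfl)
        (fun y hy => (alpha_mem_iff_zero hA h1i h2 ha hc y).2 hy)
        (fun y _ => redF_alpha_zero hA h1i h2 ha hc y) hR hπ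
        (fun c => alphaFix_algebraMap M q _ c)
      ne₁₂ := fun h => gaussK_O_ne hA h1 h2 c1 c2 h
      ne_ab := hab
      ne_ac := fun h => by
        refine Val.not_le_of_redF Pc' Pa' (g := sepEltFix M q (A.inertiaSubgroupIn ℚ)) ?_ ?_ ?_
          (le_of_eq h)
        · exact (cc.mem _).2 (sepElt_mem_zero ha hc)
        · rw [cc.red]
          exact redF_zero_sepElt hA ha hc
        · rw [ca.red]
          exact redF_inf_sepElt_ne_zero hA ha
      ne_bc := hbc
      he := he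
      fin₁ := finiteHom_alphaFixM M q _
      deg₁ := finrankHom_alphaFixM M q _ hq.out hqM
      fin₂ := finiteHom_alphaFix M q _ hq.out hqM
      deg₂ := finrankHom_alphaFix M q _ hq.out hqM
      finV := finiteHom_of_finrankHom_pos (by rw [hdegV]; exact hqpos)
      degV := hdegV }

/-! ### `v_b` along `β`, and the ten rows -/

section MidRows

variable (h1 : Old.IsGaussOne D1)
    (h2 : Old.IsGaussTwo D1 D2
      ((wq M q hq.out hqM : FBar (M * q) ≃ₐ[Qb] FBar (M * q)) : FBar (M * q) →+* FBar (M * q)))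
    (ha : IsGaussInf Da) (hc : IsGaussZero₂ M q A hqM Da Dc)
    (c1 : Compat D1 W₁') (c2 : Compat D2 W₂') (ca : Compat Da Pa') (cc : Compat Dc Pc')
    {V₂ : RamGaussDatum (Wfix A) (fixF (M * q * q) (A.inertiaSubgroupIn ℚ)) (FRes A M)} {eb : ℕ}
    {ϖa ϖb ϖc : fixF (M * q * q) (A.inertiaSubgroupIn ℚ)} {π : fixF M (A.inertiaSubgroupIn ℚ)}
    {π₁ : fixF (M * q) (A.inertiaSubgroupIn ℚ)}
    (T : TowerData (alphaFixM M q (A.inertiaSubgroupIn ℚ)) (betaFixM M q (A.inertiaSubgroupIn ℚ))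
      (alphaFix M q (A.inertiaSubgroupIn ℚ)) (Unit.VqR (M := M) hA) q eb
      (ofGauss WM') (ofGauss W₁') (ofGauss W₂') (ofGauss Pa') (ofRamGauss V₂) (ofGauss Pc')
      π π₁ ϖa ϖb ϖc)

include h1 h2 ha hc c1 c2 ca cc T in
/-- **`v_b ∘ w_{q²} = v_b`, and `v_b` along `β` is `v₀₁`** -/
theorem mid_beta :
    V₂.O.comap (wqqFix M q hq.out hqM (A.inertiaSubgroupIn ℚ) :
        fixF (M * q * q) (A.inertiaSubgroupIn ℚ) →+* fixF (M * q * q) (A.inertiaSubgroupIn ℚ)) =
      V₂.O ∧
    (∀ x, (ofRamGauss V₂).redF (wqqFix M q hq.out hqM (A.inertiaSubgroupIn ℚ) x) = (ofRamGauss V₂).redF x) ∧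
    (∀ g, betaFix M q (A.inertiaSubgroupIn ℚ) g ∈ V₂.O ↔ g ∈ W₂'.O) ∧
    ∀ g, (ofRamGauss V₂).redF (betaFix M q (A.inertiaSubgroupIn ℚ) g) = W₂'.redF g := by
  haveI : CharP (ResidueField A) q := Old.charP_kRes hA
  haveI : CharP (FRes A M) q :=
    charP_of_injective_algebraMap (algebraMap (ResidueField A) (FRes A M)).injective q
  exact T.mid (betaFix M q (A.inertiaSubgroupIn ℚ)) (wqqFix M q hq.out hqM (A.inertiaSubgroupIn ℚ))
    (wqFix M q hq.out hqM (A.inertiaSubgroupIn ℚ))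
    (fun x => by
      show x ∈ Pc'.O ↔ wqqFix M q hq.out hqM (A.inertiaSubgroupIn ℚ) x ∈ Pa'.O
      rw [cc.mem, ca.mem]
      exact hc.mem_iff _)
    (fun x => by
      show x ∈ Pa'.O ↔ wqqFix M q hq.out hqM (A.inertiaSubgroupIn ℚ) x ∈ Pc'.O
      rw [cc.mem, ca.mem]
      exact hc.mem_iff' _)
    (betaFix_eq_wqqFix M q hq.out hqM _)
    (wqqFix_alpha_alpha M q hq.out hqM _)
    (wqqFix_alpha_beta M q hq.out hqM _)
    (betaFix_alphaFixM M q _)
    (fun g => by
      show g ∈ W₂'.O ↔ wqFix M q hq.out hqM (A.inertiaSubgroupIn ℚ) g ∈ W₁'.O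
      rw [c1.mem, c2.mem]
      exact h2.mem_iff _)
    (fun g => by
      show W₂'.redF g = W₁'.redF (wqFix M q hq.out hqM (A.inertiaSubgroupIn ℚ) g)
      rw [c1.red, c2.red]
      exact h2.redF _)
    (Old.exists_Vq_eq_pow hA)

include h1 h2 ha hc c1 c2 ca cc T in
/-- **the ten rows of the `K`-rational modular places** -/
theorem rows :
    Rows (alphaFixM M q (A.inertiaSubgroupIn ℚ)) (betaFixM M q (A.inertiaSubgroupIn ℚ))
      (alphaFix M q (A.inertiaSubgroupIn ℚ)) (betaFix M q (A.inertiaSubgroupIn ℚ))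
      (Unit.VqR (M := M) hA) (ofGauss WM') (ofGauss W₁') (ofGauss W₂') (ofGauss Pa')
      (ofRamGauss V₂) (ofGauss Pc') := by
  haveI : CharP (ResidueField A) q := Old.charP_kRes hA
  haveI : CharP (FRes A M) q :=
    charP_of_injective_algebraMap (algebraMap (ResidueField A) (FRes A M)).injective q
  have h1i : IsGaussInf D1 := isGaussInf_of_isGaussOne hqM hA h1
  exact T.rows (betaFix M q (A.inertiaSubgroupIn ℚ)) (wqqFix M q hq.out hqM (A.inertiaSubgroupIn ℚ))
    (wqFix M q hq.out hqM (A.inertiaSubgroupIn ℚ))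
    { mem := fun y hy => by
        show betaFix M q _ y ∈ Pa'.O
        rw [ca.mem]
        exact (IsGaussInf.beta_mem_iff hA h1i ha _).2 ((c1.mem y).1 hy)
      red := fun y _ => by
        show Pa'.redF (betaFix M q _ y) = Unit.VqR (M := M) hA (W₁'.redF y)
        rw [ca.red, c1.red]
        exact IsGaussInf.redF_beta hA h1i ha _ }
    { mem := fun y hy => by
        show betaFix M q _ y ∈ Pc'.O
        rw [cc.mem]
        exact (beta_mem_iff_zero h1i h2 ha hc _).2 ((c2.mem y).1 hy)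
      red := fun y _ => by
        show Pc'.redF (betaFix M q _ y) = W₂'.redF y
        rw [cc.red, c2.red]
        exact redF_beta_zero h1i h2 ha hc _ }
    (fun x => by
      show x ∈ Pc'.O ↔ wqqFix M q hq.out hqM (A.inertiaSubgroupIn ℚ) x ∈ Pa'.O
      rw [cc.mem, ca.mem]
      exact hc.mem_iff _)
    (fun x => by
      show x ∈ Pa'.O ↔ wqqFix M q hq.out hqM (A.inertiaSubgroupIn ℚ) x ∈ Pc'.O
      rw [cc.mem, ca.mem]
      exact hc.mem_iff' _)
    (betaFix_eq_wqqFix M q hq.out hqM _)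
    (wqqFix_alpha_alpha M q hq.out hqM _)
    (wqqFix_alpha_beta M q hq.out hqM _)
    (betaFix_alphaFixM M q _)
    (fun g => by
      show g ∈ W₂'.O ↔ wqFix M q hq.out hqM (A.inertiaSubgroupIn ℚ) g ∈ W₁'.O
      rw [c1.mem, c2.mem]
      exact h2.mem_iff _)
    (fun g => by
      show W₂'.redF g = W₁'.redF (wqFix M q hq.out hqM (A.inertiaSubgroupIn ℚ) g)
      rw [c1.red, c2.red]
      exact h2.redF _)
    (Old.exists_Vq_eq_pow hA)

end MidRows

end General

/-! ### the standard data: `gaussMK`, `gaussOneK`, `gaussTwoK`, `gaussInfK₂`, `ramGaussK`, `gaussZeroK₂` -/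

section Concrete

open scoped Fermat.Agent.S36lib.Desc2

variable (M q : ℕ) [NeZero M] [NeZero q] [hq : Fact q.Prime] (A : ValuationSubring Qb)
  (hqM : ¬ q ∣ M) (hA : A.LiesOverPrime q)

/-- helper2's `K`-rational `v_b` (instance `Desc2.resAlgebraOn`) -/
abbrev ramK : RamGaussDatum (Wfix A) (fixF (M * q * q) (A.inertiaSubgroupIn ℚ)) (FRes A M) :=
  Eis.ramGaussK M q A hqM hA (resCompat_resAlgebraOn A (FRes A M))

theorem qFix_eq_natCast (N : ℕ) [NeZero N] :
    qFix A q N = ((q : ℕ) : fixF N (A.inertiaSubgroupIn ℚ)) := map_natCast _ q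

/-- **the tower record of the standard `K`-rational modular places** -/
theorem towerDataK :
    TowerData (alphaFixM M q (A.inertiaSubgroupIn ℚ)) (betaFixM M q (A.inertiaSubgroupIn ℚ))
      (alphaFix M q (A.inertiaSubgroupIn ℚ)) (Unit.VqR (M := M) hA) q (q - 1)
      (ofGauss (gaussMK M A hqM hA)) (ofGauss (gaussOneK M q A hqM hA))
      (ofGauss (gaussTwoK M q A hqM hA)) (ofGauss (gaussInfK₂ M q A hqM hA))
      (ofRamGauss (ramK M q A hqM hA)) (ofGauss (gaussZeroK₂ M q A hqM hA))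
      (qFix A q M) (qFix A q (M * q)) (qFix A q (M * q * q)) (ramK M q A hqM hA).unif
      (qFix A q (M * q * q)) := by
  have hun := Eis.ramGaussK_unif M q A hqM hA (resCompat_resAlgebraOn A (FRes A M))
  have hmem : yTopFix M q (A.inertiaSubgroupIn ℚ) - xTopFix M q (A.inertiaSubgroupIn ℚ) ∈
      (ramK M q A hqM hA).O := by
    rw [← hun]
    exact (ramK M q A hqM hA).unif_mem
  have hred : (ramK M q A hqM hA).red
      ⟨yTopFix M q (A.inertiaSubgroupIn ℚ) - xTopFix M q (A.inertiaSubgroupIn ℚ), hmem⟩ = 0 := by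
    have hsub : (⟨yTopFix M q (A.inertiaSubgroupIn ℚ) - xTopFix M q (A.inertiaSubgroupIn ℚ), hmem⟩ :
        (ramK M q A hqM hA).O) = ⟨(ramK M q A hqM hA).unif, (ramK M q A hqM hA).unif_mem⟩ :=
      Subtype.ext hun.symm
    rw [hsub]
    exact (ramK M q A hqM hA).red_unif
  refine towerData hA (isGaussOne_gaussOne M q A hqM hA) (isGaussTwo_gaussTwo M q A hqM hA)
    (isGaussInf_gaussInf₂ M q A hqM hA) (isGaussZero₂_gaussZero₂ M q A hqM hA)
    (compat_gaussMK M A hqM hA) (compat_gaussOneK M q A hqM hA) (compat_gaussTwoK M q A hqM hA)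
    (compat_restrictDatum _) (compat_restrictDatum _) (ramK M q A hqM hA) ?_ ?_ ?_ ?_
  · rw [hun]
    exact Eis.ramOverAlong_ramGaussK M q A hqM hA _ (qFix_eq_natCast q A (M * q))
  · have := hq.out.pos
    omega
  · exact restrict_O_inf_ne_ram hA _ (isGaussInf_gaussInf₂ M q A hqM hA) _ hmem hred
  · exact (restrict_O_zero_ne_ram hA _ (isGaussInf_gaussInf₂ M q A hqM hA)
      (isGaussZero₂_gaussZero₂ M q A hqM hA) _ hmem hred).symm

/-- **the ten rows of the standard `K`-rational modular places** -/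
theorem rowsK :
    Rows (alphaFixM M q (A.inertiaSubgroupIn ℚ)) (betaFixM M q (A.inertiaSubgroupIn ℚ))
      (alphaFix M q (A.inertiaSubgroupIn ℚ)) (betaFix M q (A.inertiaSubgroupIn ℚ))
      (Unit.VqR (M := M) hA) (ofGauss (gaussMK M A hqM hA)) (ofGauss (gaussOneK M q A hqM hA))
      (ofGauss (gaussTwoK M q A hqM hA)) (ofGauss (gaussInfK₂ M q A hqM hA))
      (ofRamGauss (ramK M q A hqM hA)) (ofGauss (gaussZeroK₂ M q A hqM hA)) :=
  rows hA (isGaussOne_gaussOne M q A hqM hA) (isGaussTwo_gaussTwo M q A hqM hA)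
    (isGaussInf_gaussInf₂ M q A hqM hA) (isGaussZero₂_gaussZero₂ M q A hqM hA)
    (compat_gaussOneK M q A hqM hA) (compat_gaussTwoK M q A hqM hA)
    (compat_restrictDatum _) (compat_restrictDatum _) (towerDataK M q A hqM hA)

/-- **`v_b ∘ w_{q²} = v_b`, and `v_b` along `β` is `v₀₁`** (standard data) -/
theorem mid_betaK :
    (ramK M q A hqM hA).O.comap (wqqFix M q hq.out hqM (A.inertiaSubgroupIn ℚ) :
        fixF (M * q * q) (A.inertiaSubgroupIn ℚ) →+* fixF (M * q * q) (A.inertiaSubgroupIn ℚ)) =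
      (ramK M q A hqM hA).O ∧
    (∀ x, (ofRamGauss (ramK M q A hqM hA)).redF
        (wqqFix M q hq.out hqM (A.inertiaSubgroupIn ℚ) x) =
      (ofRamGauss (ramK M q A hqM hA)).redF x) ∧
    (∀ g, betaFix M q (A.inertiaSubgroupIn ℚ) g ∈ (ramK M q A hqM hA).O ↔
      g ∈ (gaussTwoK M q A hqM hA).O) ∧
    ∀ g, (ofRamGauss (ramK M q A hqM hA)).redF (betaFix M q (A.inertiaSubgroupIn ℚ) g) =
      (gaussTwoK M q A hqM hA).redF g :=
  mid_beta hA (isGaussOne_gaussOne M q A hqM hA) (isGaussTwo_gaussTwo M q A hqM hA)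
    (isGaussInf_gaussInf₂ M q A hqM hA) (isGaussZero₂_gaussZero₂ M q A hqM hA)
    (compat_gaussOneK M q A hqM hA) (compat_gaussTwoK M q A hqM hA)
    (compat_restrictDatum _) (compat_restrictDatum _) (towerDataK M q A hqM hA)

end Concrete

end Fermat.Agent.S36lib.Mid
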