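/-
S36lib / Mid / Unique  (helper8)

**Completeness of a ramified family** (`Σ e_i f_i = [F : F']`): the places `P i` of a
`RamDatum` with `Σ e_i f_i = [F : F']` are ALL the places of `F` above `P'`.

* `exists_le_of_forall_mem` : a proper valuation ring `O''` of `F` containing the intersection
  `∩ O_i` of finitely many pairwise incomparable rank one valuation rings contains one of them
  (approximation theorem: `θ_i ≡ δ_ij`, `Σ θ_i` is a unit of `∩ O_i`, so some `θ_i₀` is a unit of
  `O''`, and `θ_i₀ ^ n x ∈ ∩ O_i` for `x ∈ O_i₀`);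
* `mem_of_isIntegral` : valuation rings are integrally closed (in the form needed here);
* `exists_eq_of_le` : **every valuation ring `O'' ≠ ⊤` of `F` containing the image of
  `P'.O` is one of the `(P i).O`**;
* `comap_eq_of_perm` : a field automorphism `w` of `F` which maps `P'.O` into `(P b).O`
  and permutes the other places fixes `(P b).O`.
-/
import Mathlib
import Fermat.Agent.S36lib.Norm.RamIntegral

set_option autoImplicit false
set_option linter.unusedSectionVars false

noncomputable section

namespace Fermat.Agent.S36lib.Mid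

open Fermat.Agent.S36lib.Norm

section Family

variable {F : Type*} [Field F] {ι : Type*} [Fintype ι] [DecidableEq ι]
variable (O : ι → ValuationSubring F)

/-- a proper valuation ring containing `∩ O_i` contains one of the `O_i` -/
theorem exists_le_of_forall_mem (hO : ∀ i j, i ≠ j → ¬ O i ≤ O j) (harch : ∀ i, IsArch (O i))
    (O'' : ValuationSubring F) (htop : O'' ≠ ⊤)
    (hR : ∀ f : F, (∀ i, f ∈ O i) → f ∈ O'') : ∃ i, O i ≤ O'' := by
  classical
  -- the approximate idempotents
  choose θ hθ using fun i : ι =>
    exists_approx O hO harch (fun j => if j = i then (1 : F) else 0) (fun _ => 1)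
      (fun _ => one_ne_zero)
  have hθself : ∀ i, (O i).valuation (θ i - 1) < 1 := by
    intro i
    have := hθ i i
    rwa [if_pos rfl, map_one] at this
  have hθother : ∀ i j, j ≠ i → (O j).valuation (θ i) < 1 := by
    intro i j hj
    have := hθ i j
    rwa [if_neg hj, sub_zero, map_one] at this
  have hθval : ∀ i, (O i).valuation (θ i) = 1 := by
    intro i
    have h1 : (O i).valuation (θ i - 1) < (O i).valuation (1 : F) := by
      rw [map_one]; exact hθself i
    have := Valuation.map_eq_of_sub_lt _ h1
    rwa [map_one] at this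
  have hθmem : ∀ i j, θ i ∈ O j := by
    intro i j
    rw [← (O j).valuation_le_one_iff]
    by_cases hj : j = i
    · subst hj; exact (hθval j).le
    · exact (hθother i j hj).le
  -- the sum is a unit of `∩ O_i`
  set s : F := ∑ i, θ i with hs
  have hsval : ∀ j, (O j).valuation (s - 1) < 1 := by
    intro j
    have hsplit : s - 1 = (θ j - 1) + ∑ i ∈ Finset.univ.erase j, θ i := by
      rw [hs, ← Finset.add_sum_erase Finset.univ θ (Finset.mem_univ j)]
      ring
    rw [hsplit]
    refine Valuation.map_add_lt _ (hθself j)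
      (Valuation.map_sum_lt _ one_ne_zero fun i hi => ?_)
    exact hθother i j (Ne.symm (Finset.mem_erase.1 hi).1)
  have hsone : ∀ j, (O j).valuation s = 1 := by
    intro j
    have h1 : (O j).valuation (s - 1) < (O j).valuation (1 : F) := by
      rw [map_one]; exact hsval j
    have := Valuation.map_eq_of_sub_lt _ h1
    rwa [map_one] at this
  have hsmem : s ∈ O'' := hR s fun j => ((O j).valuation_le_one_iff _).1 (hsone j).le
  have hsinv : s⁻¹ ∈ O'' := hR s⁻¹ fun j => by
    rw [← (O j).valuation_le_one_iff, map_inv₀, hsone j, inv_one]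
  -- `ι` is nonempty
  rcases isEmpty_or_nonempty ι with hemp | hne
  · exfalso
    apply htop
    rw [eq_top_iff]
    intro f _
    exact hR f fun i => (hemp.false i).elim
  obtain ⟨j₀⟩ := hne
  have hs0 : s ≠ 0 := by
    rintro h0
    have := hsone j₀
    rw [h0, map_zero] at this
    exact zero_ne_one this
  have hsO : O''.valuation s = 1 := by
    refine le_antisymm ((O''.valuation_le_one_iff _).2 hsmem) ?_
    have h1 : O''.valuation s⁻¹ ≤ 1 := (O''.valuation_le_one_iff _).2 hsinv
    rw [map_inv₀] at h1
    have hpos : 0 < O''.valuation s := zero_lt_iff.2 ((Valuation.ne_zero_iff _).2 hs0)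
    exact (inv_le_one₀ hpos).1 h1
  -- some `θ i₀` is a unit of `O''`
  obtain ⟨i₀, hi₀⟩ : ∃ i₀, O''.valuation (θ i₀) = 1 := by
    by_contra hcon
    push Not at hcon
    have hlt : ∀ i, O''.valuation (θ i) < 1 := fun i =>
      lt_of_le_of_ne ((O''.valuation_le_one_iff _).2 (hR _ (hθmem i))) (hcon i)
    have : O''.valuation s < 1 := Valuation.map_sum_lt _ one_ne_zero fun i _ => hlt i
    rw [hsO] at this
    exact lt_irrefl _ this
  refine ⟨i₀, fun x hx => ?_⟩
  -- `θ i₀ ^ n * x ∈ ∩ O_i`
  have hev : ∀ j ∈ Finset.univ.erase i₀, ∃ n, ∀ m, n ≤ m →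
      (O j).valuation (θ i₀ ^ m * x) < 1 := fun j hj =>
    (harch j).eventually_lt (hθother i₀ j (Finset.mem_erase.1 hj).1) x
  obtain ⟨n, hn⟩ := exists_uniform (Finset.univ.erase i₀)
    (fun j m => (O j).valuation (θ i₀ ^ m * x) < 1) hev
  have hmem : θ i₀ ^ n * x ∈ O'' := hR _ fun j => by
    by_cases hj : j = i₀
    · subst hj
      exact (O j).mul_mem _ _ ((O j).pow_mem (hθmem j j) n) hx
    · rw [← (O j).valuation_le_one_iff]
      exact (hn j (Finset.mem_erase.2 ⟨hj, Finset.mem_univ j⟩) n le_rfl).le
  rw [← O''.valuation_le_one_iff, map_mul, map_pow, hi₀, one_pow, one_mul] at hmem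
  exact (O''.valuation_le_one_iff _).1 hmem

/-- a proper valuation ring containing `∩ O_i` IS one of the `O_i` -/
theorem exists_eq_of_forall_mem (hO : ∀ i j, i ≠ j → ¬ O i ≤ O j) (harch : ∀ i, IsArch (O i))
    (O'' : ValuationSubring F) (htop : O'' ≠ ⊤)
    (hR : ∀ f : F, (∀ i, f ∈ O i) → f ∈ O'') : ∃ i, O'' = O i := by
  obtain ⟨i, hi⟩ := exists_le_of_forall_mem O hO harch O'' htop hR
  refine ⟨i, ?_⟩
  by_contra hne
  exact not_le_of_isArch (harch i) htop (fun h => hne h.symm) hi

end Family

/-- valuation rings are integrally closed: an element of `F` integral over a ring mapping into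
`O''` lies in `O''` -/
theorem mem_of_isIntegral {F : Type*} [Field F] (O'' : ValuationSubring F) {R : Type*}
    [CommRing R] [Algebra R F] (h : ∀ r : R, algebraMap R F r ∈ O'') {f : F}
    (hf : IsIntegral R f) : f ∈ O'' := by
  set φ : R →+* O'' := (algebraMap R F).codRestrict O''.toSubring h with hφ
  have h1 : IsIntegral (↥O'') ((RingHom.id F) f) :=
    hf.map_of_comp_eq φ (RingHom.id F) (by ext r; rfl)
  obtain ⟨y, hy⟩ := IsIntegrallyClosed.isIntegral_iff.1 h1
  rw [RingHom.id_apply] at hy
  rw [← hy]
  exact y.2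

section Ram

variable {F' F : Type*} [Field F'] [Field F] [Algebra F' F]
variable {κ' : Type*} [Field κ']
variable {ι : Type*} [Fintype ι] [DecidableEq ι]
variable {κ : ι → Type*} [∀ i, Field (κ i)] [∀ i, Algebra κ' (κ i)]
variable {P' : Place F' κ'} {π : F'} {P : ∀ i, Place F (κ i)} {ϖ : ι → F} {e : ι → ℕ}

/-- **Completeness**: with `Σ e_i f_i = [F : F']`, every proper valuation ring of `F` containing
the image of `P'.O` is one of the `(P i).O`. -/
theorem exists_eq_of_le [FiniteDimensional F' F]
    [∀ i, Module.Finite κ' (κ i)] (D : RamDatum P' π P ϖ e)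
    (hdeg : ∑ i, e i * Module.finrank κ' (κ i) = Module.finrank F' F)
    (O'' : ValuationSubring F) (htop : O'' ≠ ⊤)
    (hover : ∀ y : F', y ∈ P'.O → algebraMap F' F y ∈ O'') : ∃ i, O'' = (P i).O := by
  refine exists_eq_of_forall_mem (fun i => (P i).O) D.incomp D.arch O'' htop fun f hf => ?_
  exact mem_of_isIntegral O'' (fun r : ↥P'.O => hover r r.2) (D.isIntegral_of_mem hdeg hf)

/-- A field automorphism `w` of `F` (any injective endomorphism whose pull-back preserves
properness) which maps `P'.O` into `(P b).O` and under which every other place is the pull-back of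
another place ≠ b, fixes `(P b).O`. -/
theorem comap_eq_of_perm [FiniteDimensional F' F]
    [∀ i, Module.Finite κ' (κ i)] (D : RamDatum P' π P ϖ e)
    (hdeg : ∑ i, e i * Module.finrank κ' (κ i) = Module.finrank F' F)
    (w : F ≃+* F) (b : ι)
    (hw : ∀ y : F', y ∈ P'.O → w (algebraMap F' F y) ∈ (P b).O)
    (hperm : ∀ i, i ≠ b → ∃ j, j ≠ b ∧ (P j).O.comap (w : F →+* F) = (P i).O) :
    (P b).O.comap (w : F →+* F) = (P b).O := by
  have hbtop : (P b).O ≠ ⊤ := by
    intro htop
    have h1 := D.unif_lt b
    have h2 : (ϖ b)⁻¹ ∈ (P b).O := by rw [htop]; trivial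
    rw [← (P b).O.valuation_le_one_iff, map_inv₀] at h2
    have hpos := D.unif_pos b
    exact absurd ((inv_le_one₀ hpos).1 h2) (not_le.2 h1)
  have htop : (P b).O.comap (w : F →+* F) ≠ ⊤ := by
    intro htop
    apply hbtop
    rw [eq_top_iff]
    intro x _
    have : w.symm x ∈ (P b).O.comap (w : F →+* F) := by rw [htop]; trivial
    rw [ValuationSubring.mem_comap] at this
    simpa using this
  obtain ⟨i, hi⟩ := exists_eq_of_le D hdeg _ htop fun y hy => by
    rw [ValuationSubring.mem_comap]
    exact hw y hy
  by_cases hib : i = b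
  · rw [hi, hib]
  · exfalso
    obtain ⟨j, hjb, hj⟩ := hperm i hib
    -- `comap w` is injective
    have hinj : (P j).O = (P b).O := by
      ext x
      have h1 : w.symm x ∈ (P j).O.comap (w : F →+* F) ↔
          w.symm x ∈ (P b).O.comap (w : F →+* F) := by rw [hj, hi]
      rw [ValuationSubring.mem_comap, ValuationSubring.mem_comap] at h1
      simpa using h1
    exact D.incomp j b hjb (le_of_eq hinj)

end Ram

end Fermat.Agent.S36lib.Mid
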